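/-
S13 (Frey curve: reducible mod-p representation ⇒ Galois-stable cofixed line).
Shared definitions and the EXACT statements (interfaces) of the pieces of the proof.
Coordinator: helper67.  Plan: NOTES/plan/S13.md.

Notation: `E = P.freyCurve`, `Q̄ = AlgebraicClosure ℚ`, `G = Q̄ ≃ₐ[ℚ] Q̄`,
`V = E[p](Q̄) = Submodule.torsionBy ℤ (E⁄Q̄).Point p`.
-/
import Mathlib
import Fermat.Prelude.Def_FLTPrelim_FreyPackage
import Fermat.Prelude.Def_FLTPrelim_GaloisRep
import Fermat.Prelude.Def_FLTPrelim_Ramification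
import Fermat.Prelude.Def_FLTPrelim_CofixedLine

set_option autoImplicit false

namespace Fermat.Agent.S13

open WeierstrassCurve WeierstrassCurve.Affine WeierstrassCurve.Affine.Point

/-- `Q̄`. -/
abbrev Qbar : Type := AlgebraicClosure ℚ

/-- `G = Gal(Q̄/ℚ)`. -/
abbrev Gal : Type := Qbar ≃ₐ[ℚ] Qbar

/-- `V = E[p](Q̄)` for the Frey curve `E`. -/
abbrev Vp (P : FreyPackage) : Type :=
  Submodule.torsionBy ℤ (P.freyCurve⁄Qbar).Point P.p

/-- Kernel of reduction at the valuation subring `A`, in the coordinates of the given model: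
`Q = 0` or `x(Q) ∉ A`. -/
def InE1 {L : Type*} [Field L] (A : ValuationSubring L) {W : Affine L} : W.Point → Prop
  | .zero => True
  | .some x _ _ => x ∉ A

/-! ### Interfaces -/

/-- (I1) `#E[p](Q̄) ≤ p²` (finite).  [WP1: Wronskian / torsion polynomial] -/
def Stmt_card : Prop :=
  ∀ P : FreyPackage, Finite (Vp P) ∧ Nat.card (Vp P) ≤ P.p ^ 2

/-- (I2) `E[p](Q̄) ≠ 0`.  [WP1] -/
def Stmt_nontrivial : Prop :=
  ∀ P : FreyPackage, Nontrivial (Vp P)

/-- (I3) = statement S05: the Frey representation is unramified at every prime `q ≠ 2, p`.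
[S05 team] -/
def Stmt_S05 : Prop :=
  ∀ (P : FreyPackage) (q : ℕ), q.Prime → q ≠ 2 → q ≠ P.p → P.GaloisRepUnramifiedAt q

/-- (I4) Inertia at `2` is unipotent: there is a subspace `T` fixed pointwise by inertia with
inertia acting trivially on `V/T`.  [WP3: local analysis at 2] -/
def Stmt_two_unipotent : Prop :=
  ∀ (P : FreyPackage) (A : ValuationSubring Qbar), A.LiesOverPrime 2 →
    ∃ T : Submodule (ZMod P.p) (Vp P),
      (∀ σ ∈ A.inertiaSubgroupIn ℚ, ∀ x ∈ T, σ • x = x) ∧
      (∀ σ ∈ A.inertiaSubgroupIn ℚ, ∀ x : Vp P, σ • x - x ∈ T)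

/-- (I5) The Frey curve has no nonzero `G`-fixed `p`-torsion point.
[WP3 at 2: `v₂(Δ) = 2p·v₂(b) - 8` is prime to `p`, and `#Ẽ_ns(𝔽₂) ≤ 3 < p`] -/
def Stmt_no_fixed_point : Prop :=
  ∀ (P : FreyPackage) (x : Vp P), (∀ σ : Gal, σ • x = x) → x = 0

/-- (I6) At `p`: inertia acts trivially modulo the kernel of reduction, and the kernel of
reduction is a subspace.  [S05 team: `Stmt_core` without the hypothesis `|p| = 1`] -/
def Stmt_p_kernel : Prop :=
  ∀ (P : FreyPackage) (A : ValuationSubring Qbar), A.LiesOverPrime P.p →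
    ∃ T : Submodule (ZMod P.p) (Vp P),
      (∀ x : Vp P, x ∈ T ↔ InE1 A (x : (P.freyCurve⁄Qbar).Point)) ∧
      (∀ σ ∈ A.inertiaSubgroupIn ℚ, ∀ x : Vp P, σ • x - x ∈ T)

/-- (I7) "Supersingular case": if all of `E[p]` lies in the kernel of reduction at some `A` over
`p`, there is no proper nonzero `G`-stable subspace.
[WP1 (torsion polynomial is Eisenstein-like) + rationality of `∏_{Q ∈ N∖0} x(Q)`] -/
def Stmt_p_supersingular : Prop :=
  ∀ (P : FreyPackage) (A : ValuationSubring Qbar), A.LiesOverPrime P.p →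
    (∀ x : Vp P, InE1 A (x : (P.freyCurve⁄Qbar).Point)) →
    ∀ N : Submodule (ZMod P.p) (Vp P), IsGaloisStable ℚ N → N = ⊥ ∨ N = ⊤

/-- (I8) Minkowski: a normal subgroup of `G` that contains the pointwise stabiliser of a finite
set and, for every prime `ℓ`, the inertia group of SOME valuation subring over `ℓ`, is all of `G`.
[WP4: fixed field is a Galois number field unramified everywhere; Mathlib
`NumberField.exists_not_isUnramifiedAt_int_of_isGalois` + lifting of inertia elements] -/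
def Stmt_minkowski : Prop :=
  ∀ H : Subgroup Gal, H.Normal →
    (∃ S : Finset Qbar, ∀ σ : Gal, (∀ x ∈ S, σ x = x) → σ ∈ H) →
    (∀ ℓ : ℕ, ℓ.Prime → ∃ A : ValuationSubring Qbar, A.LiesOverPrime ℓ ∧
      A.inertiaSubgroupIn ℚ ≤ H) →
    H = ⊤

/-- (I0) Valuation subrings over every prime exist. -/
def Stmt_exists_valuationSubring : Prop :=
  ∀ ℓ : ℕ, ℓ.Prime → ∃ A : ValuationSubring Qbar, A.LiesOverPrime ℓ

end Fermat.Agent.S13
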