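/-
S13 glue (helper67): `result_of_inputs` derives the statement of S13 from the interfaces
`Stmt_*` of `Fermat/Agent/S13/Defs.lean`.  Pure group theory / linear algebra.
-/
import Fermat.Agent.S13.Defs
import Fermat.Prelude.Def_EllipticCurve_FrobeniusTrace

set_option autoImplicit false

namespace Fermat.Agent.S13

open WeierstrassCurve WeierstrassCurve.Affine WeierstrassCurve.Affine.Point

section LinearAlgebra

variable {p : ℕ} [Fact p.Prime] {V : Type*} [AddCommGroup V] [Module (ZMod p) V]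

/-- A proper nonzero subspace of a space with at most `p²` elements is a line: every nonzero
element generates it. -/
lemma le_of_mem_of_ne_zero [Finite V] (hV : Nat.card V ≤ p ^ 2)
    (N : Submodule (ZMod p) V) (hN : N ≠ ⊤) (T : Submodule (ZMod p) V)
    {y : V} (hyN : y ∈ N) (hyT : y ∈ T) (hy : y ≠ 0) : N ≤ T := by
  classical
  have hp : p.Prime := Fact.out
  -- finrank V ≤ 2
  have hcardV : Nat.card V = p ^ Module.finrank (ZMod p) V := by
    rw [Module.natCard_eq_pow_finrank (K := ZMod p) (V := V), Nat.card_zmod]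
  have hfrV : Module.finrank (ZMod p) V ≤ 2 := by
    rw [hcardV] at hV
    exact (Nat.pow_le_pow_iff_right hp.one_lt).mp hV
  have hfrN : Module.finrank (ZMod p) N < Module.finrank (ZMod p) V :=
    Submodule.finrank_lt hN
  -- span {y} ≤ N has finrank 1, so equals N
  have hspan : Submodule.span (ZMod p) {y} ≤ N := by
    rw [Submodule.span_singleton_le_iff_mem]; exact hyN
  have hfrspan : Module.finrank (ZMod p) (Submodule.span (ZMod p) {y}) = 1 :=
    finrank_span_singleton hy
  have hle : Module.finrank (ZMod p) N ≤ Module.finrank (ZMod p) (Submodule.span (ZMod p) {y}) := by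
    rw [hfrspan]; omega
  have heq : Submodule.span (ZMod p) {y} = N :=
    Submodule.eq_of_le_of_finrank_le hspan hle
  rw [← heq, Submodule.span_singleton_le_iff_mem]
  exact hyT

/-- In a space with at most `p²` elements there is nothing strictly between a nonzero subspace
and the whole space. -/
lemma eq_or_eq_top_of_le [Finite V] (hV : Nat.card V ≤ p ^ 2)
    (N : Submodule (ZMod p) V) (hN : N ≠ ⊥) (T : Submodule (ZMod p) V) (hNT : N ≤ T) :
    T = N ∨ T = ⊤ := by
  classical
  have hp : p.Prime := Fact.out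
  have hcardV : Nat.card V = p ^ Module.finrank (ZMod p) V := by
    rw [Module.natCard_eq_pow_finrank (K := ZMod p) (V := V), Nat.card_zmod]
  have hfrV : Module.finrank (ZMod p) V ≤ 2 := by
    rw [hcardV] at hV
    exact (Nat.pow_le_pow_iff_right hp.one_lt).mp hV
  have hfrN : 0 < Module.finrank (ZMod p) N := by
    rw [Module.finrank_pos_iff]
    exact Submodule.nontrivial_iff_ne_bot.mpr hN
  by_cases hT : T = ⊤
  · exact Or.inr hT
  · left
    have hfrT : Module.finrank (ZMod p) T < Module.finrank (ZMod p) V :=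
      Submodule.finrank_lt hT
    exact (Submodule.eq_of_le_of_finrank_le hNT (by omega)).symm

end LinearAlgebra

section Abstract

variable {p : ℕ} [Fact p.Prime] {V : Type*} [AddCommGroup V] [Module (ZMod p) V]
  {G : Type*} [Group G] [DistribMulAction G V]

/-- The subgroup of elements acting trivially on `N`. -/
def fixSub (G : Type*) [Group G] [DistribMulAction G V] (N : Submodule (ZMod p) V) :
    Subgroup G where
  carrier := {σ | ∀ x ∈ N, σ • x = x}
  one_mem' := fun x _ => one_smul _ x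
  mul_mem' := fun {a b} ha hb x hx => by rw [mul_smul, hb x hx, ha x hx]
  inv_mem' := fun {a} ha x hx => by
    have := ha x hx
    calc a⁻¹ • x = a⁻¹ • (a • x) := by rw [this]
      _ = x := inv_smul_smul a x

/-- The subgroup of elements acting trivially on `V/N`, for a stable `N`. -/
def cofixSub (G : Type*) [Group G] [DistribMulAction G V] (N : Submodule (ZMod p) V)
    (hN : ∀ σ : G, ∀ x ∈ N, σ • x ∈ N) : Subgroup G where
  carrier := {σ | ∀ x : V, σ • x - x ∈ N}
  one_mem' := fun x => by simp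
  mul_mem' := fun {a b} ha hb x => by
    have h1 : (a * b) • x - x = a • (b • x - x) + (a • x - x) := by
      rw [mul_smul, smul_sub]; abel
    rw [h1]
    exact N.add_mem (hN a _ (hb x)) (ha x)
  inv_mem' := fun {a} ha x => by
    have h1 : a⁻¹ • x - x = -(a⁻¹ • (a • x - x)) := by
      rw [smul_sub, inv_smul_smul]; abel
    rw [h1]
    exact N.neg_mem (hN a⁻¹ _ (ha x))

lemma fixSub_normal (N : Submodule (ZMod p) V) (hN : ∀ σ : G, ∀ x ∈ N, σ • x ∈ N) :
    (fixSub G N).Normal := by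
  refine ⟨fun σ hσ g x hx => ?_⟩
  have h1 : g⁻¹ • x ∈ N := hN _ _ hx
  rw [mul_smul, mul_smul, hσ _ h1, smul_inv_smul]

lemma cofixSub_normal (N : Submodule (ZMod p) V) (hN : ∀ σ : G, ∀ x ∈ N, σ • x ∈ N) :
    (cofixSub G N hN).Normal := by
  refine ⟨fun σ hσ g x => ?_⟩
  have h1 : (g * σ * g⁻¹) • x - x = g • (σ • (g⁻¹ • x) - g⁻¹ • x) := by
    rw [mul_smul, mul_smul, smul_sub, smul_inv_smul]
  rw [h1]
  exact hN g _ (hσ _)

/-- Unipotent with respect to some `T` ⇒ trivial on the line `N` and on `V/N`. -/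
lemma mem_fixSub_and_cofixSub_of_unipotent [Finite V] (hV : Nat.card V ≤ p ^ 2)
    (N : Submodule (ZMod p) V) (hN : ∀ σ : G, ∀ x ∈ N, σ • x ∈ N)
    (hN0 : N ≠ ⊥) (hN1 : N ≠ ⊤) (T : Submodule (ZMod p) V) (σ : G)
    (hfix : ∀ x ∈ T, σ • x = x) (hquot : ∀ x : V, σ • x - x ∈ T) :
    σ ∈ fixSub G N ∧ σ ∈ cofixSub G N hN := by
  have key : ∀ x ∈ N, σ • x = x := by
    intro x hx
    by_contra hne
    have hy : σ • x - x ≠ 0 := fun h => hne (sub_eq_zero.mp h)
    have hyN : σ • x - x ∈ N := N.sub_mem (hN σ x hx) hx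
    have hNT : N ≤ T := le_of_mem_of_ne_zero hV N hN1 T hyN (hquot x) hy
    exact hne (hfix x (hNT hx))
  refine ⟨key, fun x => ?_⟩
  -- `y = σ x - x ∈ T`
  by_cases hy : σ • x - x = 0
  · rw [hy]; exact N.zero_mem
  by_cases hNT : N ≤ T
  · rcases eq_or_eq_top_of_le hV N hN0 T hNT with h | h
    · rw [← h]; exact hquot x
    · exact absurd (sub_eq_zero.mpr (hfix x (h ▸ Submodule.mem_top))) hy
  · -- `N ⊓ T = ⊥`, `T ≠ ⊥` ⇒ `N ⊔ T = ⊤`
    have hinf : ∀ z ∈ N, z ∈ T → z = 0 := by
      intro z hzN hzT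
      by_contra hz
      exact hNT (le_of_mem_of_ne_zero hV N hN1 T hzN hzT hz)
    have hTN : T ⊔ N = ⊤ := by
      have hlt : N < T ⊔ N := by
        refine lt_of_le_of_ne le_sup_right ?_
        intro h
        have : T ≤ N := by rw [h]; exact le_sup_left
        exact hy (hinf _ (this (hquot x)) (hquot x))
      rcases eq_or_eq_top_of_le hV N hN0 (T ⊔ N) le_sup_right with h | h
      · exact absurd h.symm (ne_of_lt hlt)
      · exact h
    have hx : x ∈ T ⊔ N := by rw [hTN]; exact Submodule.mem_top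
    obtain ⟨t, ht, n, hn, rfl⟩ := Submodule.mem_sup.mp hx
    have : σ • (t + n) - (t + n) = 0 := by
      rw [smul_add, hfix t ht, key n hn]; abel
    exact absurd this hy

end Abstract

section Coordinates

/-- The finite set of coordinates of a point. -/
noncomputable def coordSet {L : Type*} [Field L] [DecidableEq L] {W : Affine L} :
    W.Point → Finset L
  | .zero => ∅
  | .some x y _ => {x, y}

lemma smul_eq_of_fix_coords (P : FreyPackage) (σ : Gal) (v : Vp P)
    (h : ∀ x ∈ coordSet (v : (P.freyCurve⁄Qbar).Point), σ x = x) : σ • v = v := by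
  apply Subtype.ext
  change σ • (v : (P.freyCurve⁄Qbar).Point) = v
  rcases hv : (v : (P.freyCurve⁄Qbar).Point) with _ | ⟨x, y, hxy⟩
  · rfl
  · rw [hv] at h
    have hx : σ x = x := h x (by simp [coordSet])
    have hy : σ y = y := h y (by simp [coordSet])
    rw [algEquiv_smul_def]
    simp only [Point.map_some]
    congr 1

end Coordinates

/-- **S13 from its inputs.** -/
theorem result_of_inputs
    (h0 : Stmt_exists_valuationSubring) (h1 : Stmt_card) (h2 : Stmt_nontrivial)
    (h3 : Stmt_S05) (h4 : Stmt_two_unipotent) (h5 : Stmt_no_fixed_point)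
    (h6 : Stmt_p_kernel) (h7 : Stmt_p_supersingular) (h8 : Stmt_minkowski)
    (P : FreyPackage)
    (hred : ¬ GaloisRepIsIrreducible (K := AlgebraicClosure ℚ) ℚ P.freyCurve P.p) :
    HasGaloisStableCofixedLine (K := AlgebraicClosure ℚ) ℚ P.freyCurve P.p := by
  classical
  have : Fact P.p.Prime := ⟨P.pp⟩
  obtain ⟨hfin, hcard⟩ := h1 P
  -- a stable proper nonzero subspace
  have hN : ∃ N : Submodule (ZMod P.p) (Vp P), IsGaloisStable ℚ N ∧ N ≠ ⊥ ∧ N ≠ ⊤ := by
    by_contra hcon
    apply hred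
    refine ⟨h2 P, fun N hNs => ?_⟩
    by_contra h
    rw [not_or] at h
    exact hcon ⟨N, hNs, h.1, h.2⟩
  obtain ⟨N, hNs, hN0, hN1⟩ := hN
  have hNs' : ∀ σ : Gal, ∀ x ∈ N, σ • x ∈ N := hNs
  -- the finite set of all coordinates
  let _ : Fintype (Vp P) := Fintype.ofFinite _
  let S : Finset Qbar := Finset.univ.biUnion fun v : Vp P =>
    coordSet (v : (P.freyCurve⁄Qbar).Point)
  have hS : ∀ σ : Gal, (∀ x ∈ S, σ x = x) → ∀ v : Vp P, σ • v = v := by
    intro σ hσ v
    apply smul_eq_of_fix_coords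
    intro x hx
    exact hσ x (Finset.mem_biUnion.mpr ⟨v, Finset.mem_univ _, hx⟩)
  have hS1 : ∃ S : Finset Qbar, ∀ σ : Gal, (∀ x ∈ S, σ x = x) → σ ∈ fixSub Gal N :=
    ⟨S, fun σ hσ x _ => hS σ hσ x⟩
  have hS2 : ∃ S : Finset Qbar, ∀ σ : Gal, (∀ x ∈ S, σ x = x) → σ ∈ cofixSub Gal N hNs' :=
    ⟨S, fun σ hσ x => by
      have : σ • x - x = 0 := sub_eq_zero.mpr (hS σ hσ x)
      rw [this]; exact N.zero_mem⟩
  -- primes other than `p`: inertia inside both subgroups
  have hp5 := P.hp5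
  have hother : ∀ ℓ : ℕ, ℓ.Prime → ℓ ≠ P.p → ∃ A : ValuationSubring Qbar, A.LiesOverPrime ℓ ∧
      A.inertiaSubgroupIn ℚ ≤ fixSub Gal N ∧ A.inertiaSubgroupIn ℚ ≤ cofixSub Gal N hNs' := by
    intro ℓ hℓ hℓp
    obtain ⟨A, hA⟩ := h0 ℓ hℓ
    refine ⟨A, hA, ?_⟩
    by_cases h2ℓ : ℓ = 2
    · subst h2ℓ
      obtain ⟨T, hT1, hT2⟩ := h4 P A hA
      have := fun σ (hσ : σ ∈ A.inertiaSubgroupIn ℚ) =>
        mem_fixSub_and_cofixSub_of_unipotent hcard N hNs' hN0 hN1 T σ (hT1 σ hσ) (hT2 σ hσ)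
      exact ⟨fun σ hσ => (this σ hσ).1, fun σ hσ => (this σ hσ).2⟩
    · have hunr := h3 P ℓ hℓ h2ℓ hℓp A hA
      refine ⟨fun σ hσ x _ => hunr σ hσ x, fun σ hσ x => ?_⟩
      have : σ • x - x = 0 := sub_eq_zero.mpr (hunr σ hσ x)
      rw [this]; exact N.zero_mem
  -- the prime `p`
  obtain ⟨Ap, hAp⟩ := h0 P.p P.pp
  obtain ⟨T, hT1, hT2⟩ := h6 P Ap hAp
  have hTtop : T ≠ ⊤ := by
    intro hT
    rcases h7 P Ap hAp (fun x => (hT1 x).mp (hT ▸ Submodule.mem_top)) N hNs with h | h
    · exact hN0 h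
    · exact hN1 h
  by_cases hNT : N ≤ T
  · -- `T = N`: inertia at `p` is trivial on `V/N`; Minkowski gives a cofixed line
    have hTN : T = N := (eq_or_eq_top_of_le hcard N hN0 T hNT).resolve_right hTtop
    have hmink : cofixSub Gal N hNs' = ⊤ := by
      refine h8 _ (cofixSub_normal N hNs') hS2 fun ℓ hℓ => ?_
      by_cases hℓp : ℓ = P.p
      · subst hℓp
        exact ⟨Ap, hAp, fun σ hσ x => hTN ▸ hT2 σ hσ x⟩
      · obtain ⟨A, hA, -, hA2⟩ := hother ℓ hℓ hℓp
        exact ⟨A, hA, hA2⟩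
    refine ⟨N, hNs, hN0, hN1, fun σ x => ?_⟩
    have : σ ∈ cofixSub Gal N hNs' := by rw [hmink]; exact Subgroup.mem_top σ
    exact this x
  · -- `N ⊓ T = ⊥`: inertia at `p` is trivial on `N`; Minkowski gives a rational point
    exfalso
    have hinf : ∀ z ∈ N, z ∈ T → z = 0 := by
      intro z hzN hzT
      by_contra hz
      exact hNT (le_of_mem_of_ne_zero hcard N hN1 T hzN hzT hz)
    have hmink : fixSub Gal N = ⊤ := by
      refine h8 _ (fixSub_normal N hNs') hS1 fun ℓ hℓ => ?_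
      by_cases hℓp : ℓ = P.p
      · subst hℓp
        refine ⟨Ap, hAp, fun σ hσ x hx => ?_⟩
        exact sub_eq_zero.mp (hinf _ (N.sub_mem (hNs' σ x hx) hx) (hT2 σ hσ x))
      · obtain ⟨A, hA, hA1, -⟩ := hother ℓ hℓ hℓp
        exact ⟨A, hA, hA1⟩
    apply hN0
    rw [Submodule.eq_bot_iff]
    intro x hx
    apply h5 P x
    intro σ
    have : σ ∈ fixSub Gal N := by rw [hmink]; exact Subgroup.mem_top σ
    exact this x hx

end Fermat.Agent.S13
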