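/-
S13: interface for the torsion polynomial (item 57 / WP1), helper67.
Either route fulfils it: Mathlib's `preΨ p` (degree `(p²-1)/2`, leading coefficient `p`)
once `p • P = 0 ↔ preΨ_p(x(P)) = 0` is known, or a Wronskian determinant.
-/
import Fermat.Agent.S13.Defs

set_option autoImplicit false

namespace Fermat.Agent.S13

open WeierstrassCurve WeierstrassCurve.Affine WeierstrassCurve.Affine.Point

/-- (TP) There is `w ∈ ℤ[X]` of degree `(p² - 1)/2`, with leading coefficient `p·u`, `p ∤ u`,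
whose roots in `Q̄` are exactly the `x`-coordinates of the nonzero `p`-torsion points of the
Frey curve. -/
def Stmt_torsion_poly : Prop :=
  ∀ P : FreyPackage, ∃ w : Polynomial ℤ,
    w.natDegree = (P.p ^ 2 - 1) / 2 ∧
    (∃ u : ℤ, w.leadingCoeff = (P.p : ℤ) * u ∧ ¬ (P.p : ℤ) ∣ u) ∧
    ∀ (x y : Qbar) (h : (P.freyCurve⁄Qbar).Nonsingular x y),
      ((P.p : ℤ) • (Point.some x y h : (P.freyCurve⁄Qbar).Point) = 0 ↔
        (w.map (algebraMap ℤ Qbar)).eval x = 0)

/-- (TP') The general form over an algebraically closed field of characteristic `0`, for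
Mathlib's division polynomial `preΨ`. -/
def Stmt_torsion_preΨ : Prop :=
  ∀ (K : Type) [Field K] [DecidableEq K] [IsAlgClosed K] [CharZero K] (W : Affine K),
    W.Δ ≠ 0 → ∀ p : ℕ, p.Prime → p ≠ 2 →
    ∀ (x y : K) (h : W.Nonsingular x y),
      ((p : ℤ) • (Point.some x y h : W.Point) = 0 ↔ (W.preΨ (p : ℤ)).eval x = 0)

end Fermat.Agent.S13
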