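/-
S13 / item 57: proof of the interface `Stmt_torsion_preΨ` (helper46; Theorem A by helper11).
-/
import Fermat.Agent.S13.TorsionDefs
import Fermat.Agent.Lib.TorsionGen.Final

set_option autoImplicit false

namespace Fermat.Agent.S13

/-- (TP') holds: for an elliptic curve over an algebraically closed field of characteristic `0`
and an odd prime `p`, `p • P = 0 ↔ preΨ_p(x(P)) = 0`. -/
theorem stmt_torsion_preΨ : Stmt_torsion_preΨ := by
  intro K _ _ _ _ W hΔ p hp hp2 x y h
  exact Fermat.Agent.Lib.TorsionGen.prime_zsmul_eq_zero_iff_eval hΔ hp hp2 h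

end Fermat.Agent.S13
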