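/-
S13 T2 (helper63): `Stmt_card` and `Stmt_nontrivial` from the torsion polynomial interface
`Stmt_torsion_poly`.

(a) the nonzero `p`-torsion points inject into the finite set of pairs
    (root `x` of `w`, root `y` of the Weierstrass quadric at `x`): at most `1 + 2 deg w = p²`.
(b) `w` has positive degree, hence a root `x` in `Q̄`; any point above `x` is a nonzero
    `p`-torsion point.
-/
import Mathlib
import Fermat.Agent.S13.Defs
import Fermat.Agent.S13.TorsionDefs
import Fermat.Agent.S13.H63_Supersingular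

set_option autoImplicit false

namespace Fermat.Agent.S13.H63

open WeierstrassCurve WeierstrassCurve.Affine WeierstrassCurve.Affine.Point Polynomial
open Fermat.Agent.S13

section General

variable {F : Type*} [Field F] (W : WeierstrassCurve.Affine F)

/-- The Weierstrass equation at a fixed `x`, as a monic quadratic polynomial in `y`. -/
noncomputable def yQuad (x : F) : F[X] :=
  X ^ 2 + C (W.a₁ * x + W.a₃) * X - C (x ^ 3 + W.a₂ * x ^ 2 + W.a₄ * x + W.a₆)

lemma yQuad_natDegree (x : F) : (yQuad W x).natDegree = 2 := by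
  unfold yQuad
  compute_degree!

lemma yQuad_ne_zero (x : F) : yQuad W x ≠ 0 := by
  intro h
  have := yQuad_natDegree W x
  rw [h, natDegree_zero] at this
  exact absurd this (by norm_num)

lemma isRoot_yQuad_iff (x y : F) : (yQuad W x).IsRoot y ↔ W.Equation x y := by
  rw [Affine.equation_iff', IsRoot, yQuad]
  simp only [eval_sub, eval_add, eval_pow, eval_X, eval_mul, eval_C]
  constructor <;> intro h <;> linear_combination h

/-- Coding of points by `Option (F × F)`. -/
def ptCode : W.Point → Option (F × F)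
  | .zero => none
  | .some x y _ => some (x, y)

lemma ptCode_injective : Function.Injective (ptCode W) := by
  rintro (_ | ⟨x₁, y₁, h₁⟩) (_ | ⟨x₂, y₂, h₂⟩) h <;>
    simp only [ptCode, Option.some.injEq, Prod.mk.injEq, reduceCtorEq] at h
  · rfl
  · obtain ⟨rfl, rfl⟩ := h; rfl

variable [DecidableEq F]

/-- If the `x`-coordinates of the nonzero `n`-torsion points are roots of a nonzero polynomial `p`
then the `n`-torsion is finite with at most `1 + 2 deg p` points. -/
theorem finite_and_card_torsionBy_le (p : F[X]) (hp : p ≠ 0) (n : ℤ)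
    (hroot : ∀ (x y : F) (h : W.Nonsingular x y), n • Point.some x y h = 0 → p.IsRoot x) :
    Finite (Submodule.torsionBy ℤ W.Point n) ∧
      Nat.card (Submodule.torsionBy ℤ W.Point n) ≤ 1 + 2 * p.natDegree := by
  classical
  set S : Finset (Option (F × F)) :=
    insert none ((p.roots.toFinset.biUnion fun r =>
      (yQuad W r).roots.toFinset.image fun y => (r, y)).image some) with hS
  have hcard : S.card ≤ 1 + 2 * p.natDegree := by
    calc S.card ≤ ((p.roots.toFinset.biUnion fun r =>
          (yQuad W r).roots.toFinset.image fun y => (r, y)).image some).card + 1 :=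
          Finset.card_insert_le _ _
      _ ≤ (p.roots.toFinset.biUnion fun r =>
          (yQuad W r).roots.toFinset.image fun y => (r, y)).card + 1 :=
          Nat.add_le_add_right Finset.card_image_le 1
      _ ≤ p.roots.toFinset.card * 2 + 1 := by
          refine Nat.add_le_add_right (Finset.card_biUnion_le_card_mul _ _ _ fun r _ => ?_) 1
          calc ((yQuad W r).roots.toFinset.image fun y => (r, y)).card
              ≤ (yQuad W r).roots.toFinset.card := Finset.card_image_le
            _ ≤ Multiset.card (yQuad W r).roots := Multiset.toFinset_card_le _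
            _ ≤ (yQuad W r).natDegree := card_roots' _
            _ = 2 := yQuad_natDegree W r
      _ ≤ p.natDegree * 2 + 1 := by
          refine Nat.add_le_add_right (Nat.mul_le_mul_right 2 ?_) 1
          exact (Multiset.toFinset_card_le _).trans (card_roots' p)
      _ = 1 + 2 * p.natDegree := by ring
  have hmem : ∀ P : Submodule.torsionBy ℤ W.Point n, ptCode W P.1 ∈ S := by
    rintro ⟨P, hP⟩
    rw [Submodule.mem_torsionBy_iff] at hP
    rcases P with _ | ⟨x, y, h⟩
    · simp [hS, ptCode]
    · have hx : p.IsRoot x := hroot x y h hP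
      simp only [hS, ptCode, Finset.mem_insert, reduceCtorEq, Finset.mem_image,
        Finset.mem_biUnion, Multiset.mem_toFinset, false_or]
      refine ⟨(x, y), ⟨x, (mem_roots hp).mpr hx, y, ?_, rfl⟩, rfl⟩
      exact (mem_roots (yQuad_ne_zero W x)).mpr ((isRoot_yQuad_iff W x y).mpr h.1)
  let f : Submodule.torsionBy ℤ W.Point n → S := fun P => ⟨ptCode W P.1, hmem P⟩
  have hf : Function.Injective f := by
    intro P Q hPQ
    have : ptCode W P.1 = ptCode W Q.1 := congrArg Subtype.val hPQ
    exact Subtype.ext (ptCode_injective W this)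
  have hfin : Finite (Submodule.torsionBy ℤ W.Point n) := Finite.of_injective f hf
  refine ⟨hfin, ?_⟩
  calc Nat.card (Submodule.torsionBy ℤ W.Point n) ≤ Nat.card S :=
        Nat.card_le_card_of_injective f hf
    _ = S.card := by rw [Nat.card_eq_fintype_card, Fintype.card_coe]
    _ ≤ 1 + 2 * p.natDegree := hcard

end General

/-- `p²` is `1 + 2 * ((p² - 1) / 2)` for the odd prime of a Frey package. -/
theorem one_add_two_mul_half (P : FreyPackage) : 1 + 2 * ((P.p ^ 2 - 1) / 2) = P.p ^ 2 := by
  have hodd : Odd (P.p ^ 2) := P.hp_odd.pow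
  have h1 : P.p ^ 2 % 2 = 1 := Nat.odd_iff.mp hodd
  omega

/-- The torsion polynomial of the interface is nonzero of positive degree over `Q̄`. -/
theorem torsion_poly_map_natDegree (P : FreyPackage) (w : ℤ[X])
    (hdeg : w.natDegree = (P.p ^ 2 - 1) / 2) :
    (w.map (algebraMap ℤ Qbar)).natDegree = (P.p ^ 2 - 1) / 2 ∧
      0 < (w.map (algebraMap ℤ Qbar)).natDegree := by
  have hinj : Function.Injective (algebraMap ℤ Qbar) := (algebraMap ℤ Qbar).injective_int
  have h1 : (w.map (algebraMap ℤ Qbar)).natDegree = (P.p ^ 2 - 1) / 2 := by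
    rw [natDegree_map_eq_of_injective hinj, hdeg]
  refine ⟨h1, ?_⟩
  rw [h1]
  have hp5 := P.hp5
  have : 5 ^ 2 ≤ P.p ^ 2 := Nat.pow_le_pow_left hp5 2
  omega

/-- **I1.** `#E[p](Q̄) ≤ p²`, from the torsion polynomial. -/
theorem card_of_torsion_poly (hTP : Stmt_torsion_poly) : Stmt_card := by
  classical
  intro P
  obtain ⟨w, hdeg, -, hTPw⟩ := hTP P
  obtain ⟨hdegQ, hpos⟩ := torsion_poly_map_natDegree P w hdeg
  have hne : w.map (algebraMap ℤ Qbar) ≠ 0 := by
    intro h
    rw [h, natDegree_zero] at hpos
    exact lt_irrefl _ hpos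
  have key := finite_and_card_torsionBy_le (P.freyCurve⁄Qbar) (w.map (algebraMap ℤ Qbar)) hne
    (P.p : ℤ) (fun x y h hP => (hTPw x y h).mp hP)
  rw [hdegQ, one_add_two_mul_half P] at key
  exact key

/-- **I2.** `E[p](Q̄) ≠ 0`, from the torsion polynomial. -/
theorem nontrivial_of_torsion_poly (hTP : Stmt_torsion_poly) : Stmt_nontrivial := by
  classical
  intro P
  obtain ⟨w, hdeg, -, hTPw⟩ := hTP P
  obtain ⟨hdegQ, hpos⟩ := torsion_poly_map_natDegree P w hdeg
  have hne : w.map (algebraMap ℤ Qbar) ≠ 0 := by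
    intro h
    rw [h, natDegree_zero] at hpos
    exact lt_irrefl _ hpos
  have hdeg0 : (w.map (algebraMap ℤ Qbar)).degree ≠ 0 := by
    rw [degree_eq_natDegree hne]
    exact_mod_cast hpos.ne'
  obtain ⟨x, hx⟩ := IsAlgClosed.exists_root (w.map (algebraMap ℤ Qbar)) hdeg0
  obtain ⟨y, hy⟩ := exists_equation (P.freyCurve⁄Qbar) x
  have h : (P.freyCurve⁄Qbar).Nonsingular x y :=
    (Affine.equation_iff_nonsingular_of_Δ_ne_zero (freyCurve_Qbar_Δ_ne_zero P)).mp hy
  have hP : (Point.some x y h : (P.freyCurve⁄Qbar).Point) ∈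
      Submodule.torsionBy ℤ (P.freyCurve⁄Qbar).Point (P.p : ℤ) := by
    rw [Submodule.mem_torsionBy_iff]
    exact (hTPw x y h).mpr hx
  refine ⟨⟨⟨_, hP⟩, 0, fun h0 => ?_⟩⟩
  exact Point.some_ne_zero h (congrArg Subtype.val h0)

end Fermat.Agent.S13.H63
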