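/-
S13 WP7 (helper63): valuation lemmas used for the Eisenstein-type argument.
-/
import Mathlib

set_option autoImplicit false

namespace Fermat.Agent.S13.H63

variable {L : Type*} [Field L] (A : ValuationSubring L)

theorem val_intCast_le_one (n : ℤ) : A.valuation (n : L) ≤ 1 :=
  (A.valuation_le_one_iff _).2 (intCast_mem A n)

variable {A}

theorem val_lt_one_of_mem_nonunits {x : L} (hx : x ∈ A.nonunits) : A.valuation x < 1 :=
  (ValuationSubring.mem_nonunits_iff A).1 hx

theorem val_intCast_eq_one_of_not_dvd {q : ℕ} (hqp : q.Prime) (hq : (q : L) ∈ A.nonunits)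
    {n : ℤ} (h : ¬ (q : ℤ) ∣ n) : A.valuation (n : L) = 1 := by
  refine le_antisymm (val_intCast_le_one A n) ?_
  by_contra hlt
  rw [not_le] at hlt
  have hcop : IsCoprime (q : ℤ) n := by
    have hp : Prime (q : ℤ) := Nat.prime_iff_prime_int.mp hqp
    exact (Prime.coprime_iff_not_dvd hp).2 h
  obtain ⟨u, v, huv⟩ := hcop
  have h1 : A.valuation ((u * q + v * n : ℤ) : L) < 1 := by
    push_cast
    refine lt_of_le_of_lt (A.valuation.map_add _ _) (max_lt ?_ ?_)
    · rw [map_mul]
      calc A.valuation (u : L) * A.valuation (q : L) ≤ 1 * A.valuation (q : L) := by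
            gcongr; exact val_intCast_le_one A u
        _ = A.valuation (q : L) := one_mul _
        _ < 1 := val_lt_one_of_mem_nonunits hq
    · rw [map_mul]
      calc A.valuation (v : L) * A.valuation (n : L) ≤ 1 * A.valuation (n : L) := by
            gcongr; exact val_intCast_le_one A v
        _ = A.valuation (n : L) := one_mul _
        _ < 1 := hlt
  rw [huv] at h1
  simp at h1

/-- The valuation of a nonzero natural number is a power of the valuation of `q`. -/
theorem val_natCast_eq_pow {q : ℕ} (hqp : q.Prime) (hq : (q : L) ∈ A.nonunits)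
    {n : ℕ} (hn : n ≠ 0) : ∃ e : ℕ, A.valuation (n : L) = A.valuation (q : L) ^ e := by
  obtain ⟨e, n', hn', rfl⟩ := Nat.exists_eq_pow_mul_and_not_dvd hn q hqp.ne_one
  refine ⟨e, ?_⟩
  have h1 : A.valuation ((n' : ℤ) : L) = 1 :=
    val_intCast_eq_one_of_not_dvd hqp hq (by exact_mod_cast hn')
  push_cast
  rw [map_mul, map_pow]
  have h2 : A.valuation (n' : L) = 1 := by simpa using h1
  rw [h2, mul_one]

/-- The valuation of a nonzero rational number is an integral power of the valuation of `q`. -/
theorem val_ratCast_eq_zpow [CharZero L] {q : ℕ} (hqp : q.Prime) (hq : (q : L) ∈ A.nonunits)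
    {z : ℚ} (hz : z ≠ 0) : ∃ k : ℤ, A.valuation (z : L) = A.valuation (q : L) ^ k := by
  have hnum : z.num.natAbs ≠ 0 := by
    simpa using hz
  have hden : z.den ≠ 0 := z.den_ne_zero
  obtain ⟨e, he⟩ := val_natCast_eq_pow hqp hq hnum
  obtain ⟨f, hf⟩ := val_natCast_eq_pow hqp hq hden
  refine ⟨(e : ℤ) - f, ?_⟩
  have hq0 : A.valuation (q : L) ≠ 0 := by
    rw [Ne, map_eq_zero]
    exact_mod_cast hqp.ne_zero
  have hz' : (z : L) = (z.num : L) / (z.den : L) := by
    conv_lhs => rw [← Rat.num_div_den z]
    push_cast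
    rfl
  have habs : A.valuation ((z.num : ℤ) : L) = A.valuation ((z.num.natAbs : ℕ) : L) := by
    rcases Int.natAbs_eq z.num with h | h
    · conv_lhs => rw [h]
      simp
    · conv_lhs => rw [h]
      simp
  rw [hz', map_div₀, habs, he, hf, zpow_sub₀ hq0, zpow_natCast, zpow_natCast]

/-- A nonempty product of elements `> 1` is `> 1`. -/
theorem one_lt_multiset_prod {Γ : Type*} [LinearOrderedCommGroupWithZero Γ] (s : Multiset Γ)
    (hs : s ≠ 0) (h : ∀ x ∈ s, 1 < x) : 1 < s.prod := by
  induction s using Multiset.induction_on with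
  | empty => exact absurd rfl hs
  | cons a t ih =>
    rw [Multiset.prod_cons]
    have ha : 1 < a := h a (Multiset.mem_cons_self a t)
    by_cases ht : t = 0
    · subst ht
      simpa using ha
    · have h1 : 1 < t.prod := ih ht (fun x hx => h x (Multiset.mem_cons_of_mem hx))
      calc (1 : Γ) = 1 * 1 := (one_mul 1).symm
        _ < a * t.prod := by
          have ha0 : (0 : Γ) < a := lt_trans zero_lt_one ha
          calc (1 : Γ) * 1 < a * 1 := by
                rw [one_mul, mul_one]; exact ha
            _ < a * t.prod := by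
                exact (mul_lt_mul_iff_right₀ ha0).mpr h1

end Fermat.Agent.S13.H63
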