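/-
S13 WP7 (helper63): I7 `Stmt_p_supersingular` from the torsion polynomial interface
`Stmt_torsion_poly` and `Stmt_card`.

Idea (Eisenstein-type): if every nonzero `p`-torsion point lies in the kernel of reduction at `A`
over `p`, then every root `r` of the torsion polynomial `w` has `v(r) > 1`, while
`v(p) * ∏_{roots} v(r) = v(w(0)) ≤ 1`.  For a stable proper nonzero `N`, the product `z` of the
distinct `x`-coordinates of `N ∖ 0` is rational, so `v(z) = v(p) ^ k`, but
`1 < v(z) < v(p)⁻¹`: contradiction.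
-/
import Mathlib
import Fermat.Agent.S13.Defs
import Fermat.Agent.S13.TorsionDefs
import Fermat.Agent.S13.H63_Val
import Fermat.Agent.S04.H59_FreySemistable

set_option autoImplicit false

namespace Fermat.Agent.S13.H63

open WeierstrassCurve WeierstrassCurve.Affine WeierstrassCurve.Affine.Point Polynomial
open Fermat.Agent.S13

/-- `Q̄/ℚ` is Galois. -/
theorem isGalois_Qbar' : IsGalois ℚ Qbar :=
  have : Algebra.IsAlgebraic ℚ (AlgebraicClosure ℚ) := AlgebraicClosure.isAlgebraic ℚ
  have : IsAlgClosure ℚ (AlgebraicClosure ℚ) := ⟨inferInstance, inferInstance⟩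
  inferInstance

/-- An element of `Q̄` fixed by every automorphism is rational. -/
theorem exists_rat_of_fixed' (x : Qbar) (h : ∀ σ : Gal, σ x = x) :
    ∃ r : ℚ, algebraMap ℚ Qbar r = x :=
  have := isGalois_Qbar'
  (InfiniteGalois.mem_range_algebraMap_iff_fixed x).mpr h

/-- The `x`-coordinate of a point (`0` for the point at infinity). -/
noncomputable def xOf {L : Type*} [Field L] {W : Affine L} : W.Point → L
  | .zero => 0
  | .some x _ _ => x

theorem xOf_smul (P : FreyPackage) (σ : Gal) (Q : (P.freyCurve⁄Qbar).Point) :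
    xOf (σ • Q) = σ (xOf Q) := by
  rcases Q with _ | ⟨x, y, h⟩
  · change xOf (0 : (P.freyCurve⁄Qbar).Point) = σ 0
    simp [xOf]
  · rfl

/-- The discriminant of the Frey curve over `Q̄` is nonzero. -/
theorem freyCurve_Qbar_Δ_ne_zero (P : FreyPackage) : (P.freyCurve⁄Qbar).Δ ≠ 0 := by
  have h1 : P.freyCurve.Δ ≠ 0 := by
    rw [← Fermat.Agent.S04.H59.freyCurveInt_map P, WeierstrassCurve.map_Δ]
    simpa using Fermat.Agent.S04.H59.freyCurveInt_Δ_ne_zero P
  change (P.freyCurve.map (algebraMap ℚ Qbar)).Δ ≠ 0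
  rw [WeierstrassCurve.map_Δ]
  exact (map_ne_zero_iff _ (algebraMap ℚ Qbar).injective).mpr h1

/-- Over an algebraically closed field every `x` is the `x`-coordinate of a point. -/
theorem exists_equation {K : Type*} [Field K] [IsAlgClosed K] (W : Affine K) (x : K) :
    ∃ y : K, W.Equation x y := by
  let q : K[X] := X ^ 2 + C (W.a₁ * x + W.a₃) * X - C (x ^ 3 + W.a₂ * x ^ 2 + W.a₄ * x + W.a₆)
  have hdeg : q.degree = 2 := by
    have h1 : (C (W.a₁ * x + W.a₃) * X - C (x ^ 3 + W.a₂ * x ^ 2 + W.a₄ * x + W.a₆) : K[X]).degree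
        < ((X : K[X]) ^ 2).degree := by
      rw [degree_X_pow]
      refine lt_of_le_of_lt (degree_sub_le _ _) (max_lt ?_ ?_)
      · refine lt_of_le_of_lt (degree_C_mul_X_le _) ?_
        norm_num
      · refine lt_of_le_of_lt degree_C_le ?_
        norm_num
    have : q = X ^ 2 + (C (W.a₁ * x + W.a₃) * X -
        C (x ^ 3 + W.a₂ * x ^ 2 + W.a₄ * x + W.a₆)) := by
      simp only [q]; ring
    rw [this, degree_add_eq_left_of_degree_lt h1, degree_X_pow]
    rfl
  obtain ⟨y, hy⟩ := IsAlgClosed.exists_root q (by rw [hdeg]; norm_num)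
  refine ⟨y, ?_⟩
  rw [Affine.equation_iff]
  have : y ^ 2 + (W.a₁ * x + W.a₃) * y - (x ^ 3 + W.a₂ * x ^ 2 + W.a₄ * x + W.a₆) = 0 := by
    simpa [q] using hy
  linear_combination this


section Card

variable {p : ℕ} [Fact p.Prime] {V : Type*} [AddCommGroup V] [Module (ZMod p) V]

/-- A proper subspace of a space with at most `p²` elements has at most `p` elements. -/
theorem card_le_of_ne_top [Finite V] (hV : Nat.card V ≤ p ^ 2)
    (N : Submodule (ZMod p) V) (hN : N ≠ ⊤) : Nat.card N ≤ p := by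
  have hp : p.Prime := Fact.out
  have hcardV : Nat.card V = p ^ Module.finrank (ZMod p) V := by
    rw [Module.natCard_eq_pow_finrank (K := ZMod p) (V := V), Nat.card_zmod]
  have hfrV : Module.finrank (ZMod p) V ≤ 2 := by
    rw [hcardV] at hV
    exact (Nat.pow_le_pow_iff_right hp.one_lt).mp hV
  have hfrN : Module.finrank (ZMod p) N < Module.finrank (ZMod p) V :=
    Submodule.finrank_lt hN
  have hcardN : Nat.card N = p ^ Module.finrank (ZMod p) N := by
    rw [Module.natCard_eq_pow_finrank (K := ZMod p) (V := N), Nat.card_zmod]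
  rw [hcardN]
  calc p ^ Module.finrank (ZMod p) N ≤ p ^ 1 :=
        Nat.pow_le_pow_right hp.pos (by omega)
    _ = p := pow_one p

end Card

/-- **I7.** The "supersingular" case of S13, from the torsion polynomial. -/
theorem p_supersingular_of_torsion_poly (hTP : Stmt_torsion_poly) (hcard : Stmt_card) :
    Stmt_p_supersingular := by
  classical
  intro P A hA hall N hNs
  by_contra hcon
  rw [not_or] at hcon
  obtain ⟨hN0, hN1⟩ := hcon
  have : Fact P.p.Prime := ⟨P.pp⟩
  obtain ⟨w, hdeg, ⟨u, hlc, hu⟩, hTPw⟩ := hTP P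
  obtain ⟨hfin, hcardV⟩ := hcard P
  letI : Fintype (Vp P) := Fintype.ofFinite _
  have hp5 := P.hp5
  -- the valuation
  have hA' : ((P.p : ℕ) : Qbar) ∈ A.nonunits := hA
  have hvp : A.valuation ((P.p : ℕ) : Qbar) < 1 := val_lt_one_of_mem_nonunits hA'
  have hvp0 : A.valuation ((P.p : ℕ) : Qbar) ≠ 0 := by
    rw [Ne, map_eq_zero]
    exact_mod_cast P.pp.ne_zero
  have hvp0' : 0 < A.valuation ((P.p : ℕ) : Qbar) := zero_lt_iff.mpr hvp0
  -- the polynomial over `Q̄`
  have hinj : Function.Injective (algebraMap ℤ Qbar) := (algebraMap ℤ Qbar).injective_int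
  set wQ : Qbar[X] := w.map (algebraMap ℤ Qbar) with hwQ
  have hsplit : wQ.Splits := IsAlgClosed.splits wQ
  have hdegQ : wQ.natDegree = (P.p ^ 2 - 1) / 2 := by
    rw [hwQ, natDegree_map_eq_of_injective hinj, hdeg]
  have hcardroots : wQ.roots.card = (P.p ^ 2 - 1) / 2 := by
    rw [← hsplit.natDegree_eq_card_roots, hdegQ]
  have hw0 : w ≠ 0 := by
    intro h
    rw [h, leadingCoeff_zero] at hlc
    have hu0 : u ≠ 0 := fun h0 => hu (h0 ▸ dvd_zero _)
    have : (P.p : ℤ) * u ≠ 0 := mul_ne_zero (by exact_mod_cast P.pp.ne_zero) hu0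
    exact this hlc.symm
  have hwQ0 : wQ ≠ 0 := (Polynomial.map_ne_zero_iff hinj).mpr hw0
  -- Step 1: every root has valuation `> 1`
  have hroot : ∀ r : Qbar, wQ.eval r = 0 → 1 < A.valuation r := by
    intro r hr
    obtain ⟨y, hy⟩ := exists_equation (P.freyCurve⁄Qbar) r
    have hns : (P.freyCurve⁄Qbar).Nonsingular r y :=
      (Affine.equation_iff_nonsingular_of_Δ_ne_zero (freyCurve_Qbar_Δ_ne_zero P)).mp hy
    have htors : ((P.p : ℤ) • (Point.some r y hns : (P.freyCurve⁄Qbar).Point) = 0) :=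
      (hTPw r y hns).mpr hr
    have hmem : (Point.some r y hns : (P.freyCurve⁄Qbar).Point) ∈
        Submodule.torsionBy ℤ (P.freyCurve⁄Qbar).Point P.p := by
      rw [Submodule.mem_torsionBy_iff]
      exact htors
    have h1 := hall ⟨_, hmem⟩
    have h2 : r ∉ A := h1
    rw [← A.valuation_le_one_iff] at h2
    exact not_le.mp h2
  -- Step 2: `v(p) * ∏ v(r) ≤ 1`
  have hprod : A.valuation ((P.p : ℕ) : Qbar) * (wQ.roots.map A.valuation).prod ≤ 1 := by
    have h1 := hsplit.eval_eq_prod_roots 0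
    have h2 : wQ.eval 0 = ((w.coeff 0 : ℤ) : Qbar) := by
      rw [hwQ, ← coeff_zero_eq_eval_zero, coeff_map]
      simp
    have h3 : wQ.leadingCoeff = (((P.p : ℤ) * u : ℤ) : Qbar) := by
      rw [hwQ, leadingCoeff_map_of_injective hinj, hlc]
      simp
    have h4 : A.valuation wQ.leadingCoeff = A.valuation ((P.p : ℕ) : Qbar) := by
      rw [h3]
      push_cast
      rw [map_mul, val_intCast_eq_one_of_not_dvd P.pp hA' hu, mul_one]
    have h5 : A.valuation ((wQ.roots.map (0 - ·)).prod) = (wQ.roots.map A.valuation).prod := by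
      rw [map_multiset_prod, Multiset.map_map]
      congr 1
      refine Multiset.map_congr rfl (fun r _ => ?_)
      simp
    have h6 : A.valuation (wQ.eval 0) =
        A.valuation ((P.p : ℕ) : Qbar) * (wQ.roots.map A.valuation).prod := by
      rw [h1, map_mul, h4, h5]
    rw [← h6, h2]
    exact val_intCast_le_one A _
  -- Step 3: the `x`-coordinates of `N ∖ 0`
  set S : Finset (Vp P) := Finset.univ.filter (fun Q => Q ∈ N ∧ Q ≠ 0) with hS
  set xs : Finset Qbar := S.image (fun Q : Vp P => xOf Q.1) with hxs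
  -- `S` is nonempty
  have hSne : S.Nonempty := by
    obtain ⟨Q, hQN, hQ0⟩ := (Submodule.ne_bot_iff N).mp hN0
    exact ⟨Q, by simp [hS, hQN, hQ0]⟩
  have hxsne : xs.Nonempty := by
    rw [hxs]
    exact hSne.image _
  -- every element of `xs` is a root of `wQ`
  have hxsroot : ∀ r ∈ xs, wQ.eval r = 0 := by
    intro r hr
    rw [hxs, Finset.mem_image] at hr
    obtain ⟨Q, hQS, rfl⟩ := hr
    rw [hS, Finset.mem_filter] at hQS
    obtain ⟨-, -, hQ0⟩ := hQS
    obtain ⟨Qpt, hQmem⟩ := Q
    rcases Qpt with _ | ⟨x, y, h⟩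
    · exact absurd (Subtype.ext rfl) hQ0
    · rw [Submodule.mem_torsionBy_iff] at hQmem
      exact (hTPw x y h).mp hQmem
  have hxsval : ∀ r ∈ xs, 1 < A.valuation r := fun r hr => hroot r (hxsroot r hr)
  -- `xs ≤ roots` as multisets
  have hle : xs.val ≤ wQ.roots := by
    rw [Multiset.le_iff_subset xs.nodup]
    intro r hr
    rw [mem_roots hwQ0]
    exact hxsroot r hr
  -- `card xs < card roots`
  have hcardN : Nat.card N ≤ P.p := card_le_of_ne_top hcardV N hN1
  have hcardS : S.card ≤ P.p := by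
    have h1 : S.card ≤ (Finset.univ.filter (fun Q : Vp P => Q ∈ N)).card := by
      apply Finset.card_le_card
      intro Q hQ
      rw [hS, Finset.mem_filter] at hQ
      rw [Finset.mem_filter]
      exact ⟨hQ.1, hQ.2.1⟩
    have h2 : (Finset.univ.filter (fun Q : Vp P => Q ∈ N)).card = Nat.card N := by
      rw [Nat.card_eq_fintype_card, Fintype.card_subtype]
    omega
  have hcardxs : xs.card < wQ.roots.card := by
    have h1 : xs.card ≤ S.card := Finset.card_image_le
    have h2 : P.p < (P.p ^ 2 - 1) / 2 := by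
      have h3 : 2 * P.p + 2 ≤ P.p ^ 2 - 1 := by
        have : 5 * P.p ≤ P.p ^ 2 := by nlinarith
        omega
      omega
    omega
  obtain ⟨rest, hrest⟩ := Multiset.le_iff_exists_add.mp hle
  have hrest0 : rest ≠ 0 := by
    intro h
    rw [h, add_zero] at hrest
    rw [hrest] at hcardxs
    exact lt_irrefl _ hcardxs
  have hrestval : ∀ x ∈ rest.map A.valuation, 1 < x := by
    intro x hx
    rw [Multiset.mem_map] at hx
    obtain ⟨r, hr, rfl⟩ := hx
    apply hroot
    have : r ∈ wQ.roots := by rw [hrest]; exact Multiset.mem_add.mpr (Or.inr hr)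
    exact (mem_roots hwQ0).mp this
  have hrestprod : 1 < (rest.map A.valuation).prod :=
    one_lt_multiset_prod _ (by simpa using hrest0) hrestval
  -- the product `z` of `xs`
  set z : Qbar := ∏ r ∈ xs, r with hz
  have hvz : A.valuation z = (xs.val.map A.valuation).prod := by
    rw [hz, map_prod]
    rfl
  have hvz1 : 1 < A.valuation z := by
    rw [hvz]
    refine one_lt_multiset_prod _ ?_ ?_
    · intro h
      have := congrArg Multiset.card h
      simp only [Multiset.card_map, Multiset.card_zero] at this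
      exact (Finset.card_pos.mpr hxsne).ne' this
    · intro x hx
      rw [Multiset.mem_map] at hx
      obtain ⟨r, hr, rfl⟩ := hx
      exact hxsval r hr
  have hvz2 : A.valuation ((P.p : ℕ) : Qbar) * A.valuation z < 1 := by
    have h1 : (wQ.roots.map A.valuation).prod =
        A.valuation z * (rest.map A.valuation).prod := by
      rw [hrest, Multiset.map_add, Multiset.prod_add, hvz]
    have h2 : A.valuation z < (wQ.roots.map A.valuation).prod := by
      rw [h1]
      have hz0 : 0 < A.valuation z := lt_trans zero_lt_one hvz1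
      calc A.valuation z = A.valuation z * 1 := (mul_one _).symm
        _ < A.valuation z * (rest.map A.valuation).prod :=
          (mul_lt_mul_iff_right₀ hz0).mpr hrestprod
    calc A.valuation ((P.p : ℕ) : Qbar) * A.valuation z
        < A.valuation ((P.p : ℕ) : Qbar) * (wQ.roots.map A.valuation).prod :=
          (mul_lt_mul_iff_right₀ hvp0').mpr h2
      _ ≤ 1 := hprod
  -- `z` is Galois invariant, hence rational
  have hxsσ : ∀ σ : Gal, xs.image σ = xs := by
    intro σ
    apply Finset.eq_of_subset_of_card_le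
    · intro r hr
      rw [Finset.mem_image] at hr
      obtain ⟨r', hr', rfl⟩ := hr
      rw [hxs, Finset.mem_image] at hr'
      obtain ⟨Q, hQS, rfl⟩ := hr'
      rw [hS, Finset.mem_filter] at hQS
      obtain ⟨-, hQN, hQ0⟩ := hQS
      rw [hxs, Finset.mem_image]
      refine ⟨σ • Q, ?_, ?_⟩
      · rw [hS, Finset.mem_filter]
        refine ⟨Finset.mem_univ _, hNs σ Q hQN, ?_⟩
        intro h
        apply hQ0
        have := congrArg (fun x => σ⁻¹ • x) h
        simpa using this
      · exact xOf_smul P σ Q.1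
    · rw [Finset.card_image_of_injective _ σ.injective]
  have hzσ : ∀ σ : Gal, σ z = z := by
    intro σ
    rw [hz, map_prod]
    conv_rhs => rw [← hxsσ σ]
    rw [Finset.prod_image (fun a _ b _ h => σ.injective h)]
  obtain ⟨q, hq⟩ := exists_rat_of_fixed' z hzσ
  have hq0 : q ≠ 0 := by
    rintro rfl
    rw [_root_.map_zero] at hq
    rw [← hq, _root_.map_zero] at hvz1
    exact not_lt.mpr zero_le_one hvz1
  obtain ⟨k, hk⟩ := val_ratCast_eq_zpow (A := A) P.pp hA' hq0
  have hqz : ((q : ℚ) : Qbar) = z := by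
    rw [← hq, eq_ratCast]
  rw [hqz] at hk
  -- contradiction: `1 < v(p)^k` and `v(p)^(k+1) < 1`
  rw [hk] at hvz1 hvz2
  have hk1 : k < 0 := by
    by_contra hk0
    rw [not_lt] at hk0
    have : A.valuation ((P.p : ℕ) : Qbar) ^ k ≤ 1 := by
      obtain ⟨n, rfl⟩ := Int.eq_ofNat_of_zero_le hk0
      rw [zpow_natCast]
      exact pow_le_one₀ hvp0'.le hvp.le
    exact not_lt.mpr this hvz1
  have hk2 : 0 < k + 1 := by
    by_contra hk0
    rw [not_lt] at hk0
    obtain ⟨n, hn⟩ := Int.exists_eq_neg_ofNat hk0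
    have h1 : A.valuation ((P.p : ℕ) : Qbar) * A.valuation ((P.p : ℕ) : Qbar) ^ k =
        A.valuation ((P.p : ℕ) : Qbar) ^ (k + 1) := by
      rw [zpow_add₀ hvp0, zpow_one, mul_comm]
    rw [h1, hn, zpow_neg, zpow_natCast] at hvz2
    have h2 : A.valuation ((P.p : ℕ) : Qbar) ^ n ≤ 1 := pow_le_one₀ hvp0'.le hvp.le
    have h3 : 0 < A.valuation ((P.p : ℕ) : Qbar) ^ n := pow_pos hvp0' n
    have h4 : 1 ≤ (A.valuation ((P.p : ℕ) : Qbar) ^ n)⁻¹ := (one_le_inv₀ h3).mpr h2
    exact not_lt.mpr h4 hvz2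
  omega

end Fermat.Agent.S13.H63
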