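/-
S13 T2 (helper63): the torsion polynomial interface `Stmt_torsion_poly` for the Frey curve from
the general statement `Stmt_torsion_preΨ` about Mathlib's division polynomial `preΨ`.

The witness is `w = preΨ_p` of the integral Frey model: degree `(p² - 1)/2`, leading
coefficient `p` (so `u = 1`).
-/
import Mathlib
import Fermat.Agent.S13.Defs
import Fermat.Agent.S13.TorsionDefs
import Fermat.Agent.S13.H63_Supersingular

set_option autoImplicit false

namespace Fermat.Agent.S13.H63

open WeierstrassCurve WeierstrassCurve.Affine WeierstrassCurve.Affine.Point Polynomial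
open Fermat.Agent.S13

/-- The Frey curve over `Q̄` is the base change of the integral Frey model. -/
theorem freyCurve_Qbar_eq_map (P : FreyPackage) :
    (P.freyCurve⁄Qbar) = P.freyCurveInt.map (algebraMap ℤ Qbar) := by
  change P.freyCurve.map (algebraMap ℚ Qbar) = _
  rw [← Fermat.Agent.S04.H59.freyCurveInt_map P, WeierstrassCurve.map_map]
  exact congrArg _ (RingHom.ext_int _ _)

/-- The division polynomial `preΨ_n` of the Frey curve over `Q̄` comes from `ℤ[X]`. -/
theorem freyCurve_Qbar_preΨ (P : FreyPackage) (n : ℤ) :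
    (P.freyCurve⁄Qbar).preΨ n = (P.freyCurveInt.preΨ n).map (algebraMap ℤ Qbar) := by
  rw [freyCurve_Qbar_eq_map P, WeierstrassCurve.map_preΨ]

theorem not_even_p (P : FreyPackage) : ¬ Even (P.p : ℤ) := by
  rw [Int.not_even_iff_odd]
  exact_mod_cast P.hp_odd

theorem natDegree_freyCurveInt_preΨ (P : FreyPackage) :
    (P.freyCurveInt.preΨ (P.p : ℤ)).natDegree = (P.p ^ 2 - 1) / 2 := by
  have hp0 : (Int.cast (R := ℤ) (P.p : ℤ)) ≠ 0 := by
    simpa using P.hp0
  rw [WeierstrassCurve.natDegree_preΨ P.freyCurveInt (n := (P.p : ℤ)) hp0,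
    if_neg (not_even_p P), Int.natAbs_natCast]

theorem leadingCoeff_freyCurveInt_preΨ (P : FreyPackage) :
    (P.freyCurveInt.preΨ (P.p : ℤ)).leadingCoeff = (P.p : ℤ) := by
  have hp0 : (Int.cast (R := ℤ) (P.p : ℤ)) ≠ 0 := by
    simpa using P.hp0
  rw [WeierstrassCurve.leadingCoeff_preΨ P.freyCurveInt (n := (P.p : ℤ)) hp0,
    if_neg (not_even_p P)]
  simp

/-- **TP from TP'.** -/
theorem torsion_poly_of_preΨ (h : Stmt_torsion_preΨ) : Stmt_torsion_poly := by
  intro P
  refine ⟨P.freyCurveInt.preΨ (P.p : ℤ), natDegree_freyCurveInt_preΨ P, ⟨1, ?_, ?_⟩, ?_⟩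
  · rw [leadingCoeff_freyCurveInt_preΨ, mul_one]
  · intro hdvd
    have h1 : (P.p : ℤ) ≤ 1 := Int.le_of_dvd one_pos hdvd
    have h5 : (5 : ℤ) ≤ (P.p : ℤ) := by exact_mod_cast P.hp5
    omega
  · intro x y hxy
    have h2 : P.p ≠ 2 := by
      have := P.hp5
      omega
    have key := h Qbar (P.freyCurve⁄Qbar) (freyCurve_Qbar_Δ_ne_zero P) P.p P.pp h2 x y hxy
    rw [← freyCurve_Qbar_preΨ P]
    exact key

end Fermat.Agent.S13.H63
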