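/-
S13, WP5: an element of `Q̄` fixed by all of `Gal(Q̄/ℚ)` is rational.
-/
import Mathlib

set_option autoImplicit false

namespace Fermat.Agent.S13.H12

/-- `Q̄/ℚ` is Galois. -/
theorem isGalois_qbar : IsGalois ℚ (AlgebraicClosure ℚ) :=
  haveI : Algebra.IsAlgebraic ℚ (AlgebraicClosure ℚ) := AlgebraicClosure.isAlgebraic ℚ
  haveI : IsAlgClosure ℚ (AlgebraicClosure ℚ) := ⟨inferInstance, inferInstance⟩
  inferInstance

/-- (WP5) An element of `Q̄` fixed by every automorphism is in the image of `ℚ`. -/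
theorem fixed_rat (x : AlgebraicClosure ℚ)
    (h : ∀ σ : AlgebraicClosure ℚ ≃ₐ[ℚ] AlgebraicClosure ℚ, σ x = x) :
    x ∈ Set.range (algebraMap ℚ (AlgebraicClosure ℚ)) :=
  haveI := isGalois_qbar
  (InfiniteGalois.mem_range_algebraMap_iff_fixed x).mpr h

/-- (WP5, existential form.) -/
theorem exists_rat_of_fixed (x : AlgebraicClosure ℚ)
    (h : ∀ σ : AlgebraicClosure ℚ ≃ₐ[ℚ] AlgebraicClosure ℚ, σ x = x) :
    ∃ r : ℚ, algebraMap ℚ (AlgebraicClosure ℚ) r = x :=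
  fixed_rat x h

end Fermat.Agent.S13.H12
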