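/-
S13, work package WP-p (helper87): interface (I6) `Stmt_p_kernel`.
At a valuation subring `A` of `Q̄` over the prime `p = P.p`, the kernel of reduction
`T = E[p] ∩ E₁(A)` is a subspace of `V = E[p](Q̄)` and inertia acts trivially on `V / T`.

Re-uses the S05 machinery on the model `y² = x³ + a x² + b x` (pieces E1_add, F2, M1, transfer,
inertia unpacking); nothing here needs `|p| = 1`.
-/
import Fermat.Agent.S13.Defs
import Fermat.Agent.S05.Core
import Fermat.Agent.S05.Transfer
import Fermat.Agent.S05.Inertia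
import Fermat.Agent.S05.Arith

set_option autoImplicit false

namespace Fermat.Agent.S13.H87

open WeierstrassCurve WeierstrassCurve.Affine WeierstrassCurve.Affine.Point
open Fermat.Agent.S05

/-! ### Arithmetic of the Frey package at an odd prime (including `q = p`) -/

open Fermat.Agent.S05.H15 in
/-- Variant of S05 piece G without the hypothesis `q ≠ p` (and without the conclusion `|p| = 1`),
recording in addition that the shift `e` is integral at `A`. -/
theorem arith_p (P : FreyPackage) (q : ℕ) (hq : q.Prime) (hq2 : q ≠ 2)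
    (A : ValuationSubring Qbar) (hA : A.LiesOverPrime q) :
    ∃ e c : ℚ, e ^ 3 + (4 * P.freyCurve.a₂ + 1) * e ^ 2 + 16 * P.freyCurve.a₄ * e = 0 ∧
      ModelHyp A ((modelOf P.freyCurve e)⁄Qbar) ∧
      A.valuation (algebraMap ℚ Qbar e) ≤ 1 ∧
      A.valuation (algebraMap ℚ Qbar c) ^ P.p =
        A.valuation (algebraMap ℚ Qbar (modelOf P.freyCurve e).a₄) ^ 2 := by
  have hqK : ((q : ℕ) : Qbar) ∈ A.nonunits := hA
  have h4 : 4 * P.freyCurve.a₂ + 1 = ((P.b ^ P.p - P.a ^ P.p : ℤ) : ℚ) := by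
    simp only [FreyPackage.freyCurve]
    push_cast
    ring
  have h16 : 16 * P.freyCurve.a₄ = ((-(P.a ^ P.p * P.b ^ P.p) : ℤ) : ℚ) := by
    simp only [FreyPackage.freyCurve]
    push_cast
    ring
  have hval2 : A.valuation (2 : Qbar) = 1 := by
    have := valuation_natCast_eq_one_of_ne (A := A) hq hqK Nat.prime_two (Ne.symm hq2)
    simpa using this
  have hcast : ∀ n : ℤ, algebraMap ℚ Qbar ((n : ℤ) : ℚ) = ((n : ℤ) : Qbar) := fun n => by simp
  by_cases hc : (q : ℤ) ∣ P.c
  · -- case `q ∣ c`: `e = a^p`, `c₀ = (a c)^2`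
    have hqb : ¬ (q : ℤ) ∣ P.b := fun h =>
      not_dvd_of_gcd_eq_one hq P.hgcdbc h hc
    refine ⟨((P.a ^ P.p : ℤ) : ℚ), (((P.a * P.c) ^ 2 : ℤ) : ℚ), ?_, ?_, ?_, ?_⟩
    · rw [h4, h16]; push_cast; ring
    · have ha2 : (modelOf P.freyCurve ((P.a ^ P.p : ℤ) : ℚ)).a₂ =
          ((P.b ^ P.p + 2 * P.a ^ P.p : ℤ) : ℚ) := by
        simp only [modelOf]; rw [h4]; push_cast; ring
      have ha4 : (modelOf P.freyCurve ((P.a ^ P.p : ℤ) : ℚ)).a₄ =
          ((P.a ^ P.p * P.c ^ P.p : ℤ) : ℚ) := by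
        simp only [modelOf]; rw [h4, h16, ← P.hFLT]; push_cast; ring
      refine ⟨by simp [modelOf], by simp [modelOf], by simp [modelOf], ?_, ?_, ?_, hval2, ?_⟩
      · show A.valuation (algebraMap ℚ Qbar _) ≤ 1
        rw [ha2, hcast]; exact valuation_intCast_le_one A _
      · show A.valuation (algebraMap ℚ Qbar _) ≤ 1
        rw [ha4, hcast]; exact valuation_intCast_le_one A _
      · show algebraMap ℚ Qbar _ ≠ 0
        rw [ha4, hcast]
        have : (P.a ^ P.p * P.c ^ P.p : ℤ) ≠ 0 :=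
          mul_ne_zero (pow_ne_zero _ P.ha0) (pow_ne_zero _ P.hc0)
        exact_mod_cast this
      · show A.valuation ((algebraMap ℚ Qbar _) ^ 2 - 4 * (algebraMap ℚ Qbar _)) = 1
        rw [ha2, ha4, hcast, hcast]
        have : (((P.b ^ P.p + 2 * P.a ^ P.p : ℤ) : Qbar)) ^ 2
            - 4 * ((P.a ^ P.p * P.c ^ P.p : ℤ) : Qbar) = (((P.b ^ P.p) ^ 2 : ℤ) : Qbar) := by
          rw [← P.hFLT]; push_cast; ring
        rw [this]
        exact valuation_intCast_eq_one_of_not_dvd hq hqK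
          (not_dvd_pow hq (not_dvd_pow hq hqb _) _)
    · rw [hcast]; exact valuation_intCast_le_one A _
    · have ha4 : (modelOf P.freyCurve ((P.a ^ P.p : ℤ) : ℚ)).a₄ =
          ((P.a ^ P.p * P.c ^ P.p : ℤ) : ℚ) := by
        simp only [modelOf]; rw [h4, h16, ← P.hFLT]; push_cast; ring
      rw [ha4, hcast, hcast, ← map_pow, ← map_pow]
      congr 1
      push_cast
      ring
  · -- case `q ∤ c`: `e = 0`, `c₀ = (a b)^2`
    refine ⟨0, (((P.a * P.b) ^ 2 : ℤ) : ℚ), ?_, ?_, ?_, ?_⟩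
    · have hp0 : P.p ≠ 0 := P.hp0
      simp
    · have ha2 : (modelOf P.freyCurve 0).a₂ = ((P.b ^ P.p - P.a ^ P.p : ℤ) : ℚ) := by
        simp only [modelOf]; rw [h4]; push_cast; ring
      have ha4 : (modelOf P.freyCurve 0).a₄ = ((-(P.a ^ P.p * P.b ^ P.p) : ℤ) : ℚ) := by
        simp only [modelOf]; rw [h16]; push_cast; ring
      refine ⟨by simp [modelOf], by simp [modelOf], by simp [modelOf], ?_, ?_, ?_, hval2, ?_⟩
      · show A.valuation (algebraMap ℚ Qbar _) ≤ 1
        rw [ha2, hcast]; exact valuation_intCast_le_one A _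
      · show A.valuation (algebraMap ℚ Qbar _) ≤ 1
        rw [ha4, hcast]; exact valuation_intCast_le_one A _
      · show algebraMap ℚ Qbar _ ≠ 0
        rw [ha4, hcast]
        have : (-(P.a ^ P.p * P.b ^ P.p) : ℤ) ≠ 0 :=
          neg_ne_zero.2 (mul_ne_zero (pow_ne_zero _ P.ha0) (pow_ne_zero _ P.hb0))
        exact_mod_cast this
      · show A.valuation ((algebraMap ℚ Qbar _) ^ 2 - 4 * (algebraMap ℚ Qbar _)) = 1
        rw [ha2, ha4, hcast, hcast]
        have : (((P.b ^ P.p - P.a ^ P.p : ℤ) : Qbar)) ^ 2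
            - 4 * ((-(P.a ^ P.p * P.b ^ P.p) : ℤ) : Qbar) = (((P.c ^ P.p) ^ 2 : ℤ) : Qbar) := by
          rw [← P.hFLT]; push_cast; ring
        rw [this]
        exact valuation_intCast_eq_one_of_not_dvd hq hqK
          (not_dvd_pow hq (not_dvd_pow hq hc _) _)
    · rw [_root_.map_zero, _root_.map_zero]; exact zero_le_one
    · have ha4 : (modelOf P.freyCurve 0).a₄ = ((-(P.a ^ P.p * P.b ^ P.p) : ℤ) : ℚ) := by
        simp only [modelOf]; rw [h16]; push_cast; ring
      rw [ha4, hcast, hcast, ← map_pow, ← map_pow]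
      congr 1
      push_cast
      ring

/-! ### The core argument on the model, without `|p| = 1` -/

section core

variable {K₀ L : Type} [Field K₀] [Field L] [DecidableEq L] [Algebra K₀ L] [IsAlgClosed L]

/-- Multiplicative case of the S05 core argument, stopped before the use of `F1`:
for a `p`-torsion point `P` and an inertia-like `σ`, `σ P - P` lies in the kernel of reduction.
(No hypothesis on `|p|`.) -/
theorem core_mult_E1 (hM1 : Stmt_M1 (L := L)) (hF2 : Stmt_F2 (L := L))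
    (A : ValuationSubring L) (W' : Affine K₀) (hyp : ModelHyp A (W'⁄L))
    (hb : A.valuation (algebraMap K₀ L W'.a₄) < 1)
    (p : ℕ) (hodd : Odd p)
    (c : K₀) (hc : A.valuation (algebraMap K₀ L c) ^ p = A.valuation (algebraMap K₀ L W'.a₄) ^ 2)
    (σ : L ≃ₐ[K₀] L) (hσv : ∀ x, A.valuation (σ x) = A.valuation x)
    (hσr : ∀ x, A.valuation x ≤ 1 → A.valuation (σ x - x) < 1)
    (P : (W'⁄L).Point) (hP : (p : ℤ) • P = 0) : S05.InE1 A (σ • P - P) := by
  have hp0 : p ≠ 0 := by
    rintro rfl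
    exact absurd hodd (by decide)
  have hP' : p • P = 0 := by rwa [natCast_zsmul] at hP
  have hb' : A.valuation (W'⁄L).a₄ < 1 := hb
  have hI := S05.inertiaLike_smul A W' σ hσv hσr
  obtain ⟨β, hβ⟩ := IsAlgClosed.exists_pow_nat_eq ((W'⁄L).a₂) (n := 2) (by norm_num)
  obtain ⟨φ, hker, hφ⟩ := hM1 A (W'⁄L) hyp hb' β hβ
  -- it suffices to find a σ-fixed point `P₀` in the same component as `P`
  suffices h : ∃ P₀ : (W'⁄L).Point, σ • P₀ = P₀ ∧ φ P₀ = φ P by
    obtain ⟨P₀, hfix, hcomp⟩ := h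
    have hQ : S05.InE0 A (P - P₀) := by
      rw [← hker, map_sub, hcomp, sub_self]
    have hR := hF2 A (W'⁄L) hyp _ _ hI (P - P₀) hQ
    have hR' : σ • (P - P₀) - (P - P₀) = σ • P - P := by
      rw [smul_sub, hfix]; abel
    simp only [hR'] at hR
    exact hR
  -- notation
  have hb0 : algebraMap K₀ L W'.a₄ ≠ 0 := hyp.b_ne
  have hvb0 : A.valuation (algebraMap K₀ L W'.a₄) ≠ 0 := by simpa using hb0
  have hc0 : algebraMap K₀ L c ≠ 0 := by
    intro h
    rw [h, _root_.map_zero, zero_pow hp0] at hc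
    exact pow_ne_zero 2 hvb0 hc.symm
  have hvc0 : A.valuation (algebraMap K₀ L c) ≠ 0 := by simpa using hc0
  have hvc1 : A.valuation (algebraMap K₀ L c) < 1 := by
    by_contra h
    push Not at h
    have h1 : 1 ≤ A.valuation (algebraMap K₀ L c) ^ p := one_le_pow₀ h
    rw [hc] at h1
    have h2 : A.valuation (algebraMap K₀ L W'.a₄) ^ 2 < 1 := pow_lt_one₀ zero_le hb two_ne_zero
    exact absurd h1 (not_le.2 h2)
  have hσa : (σ : L →+* L) (W'⁄L).a₂ = (W'⁄L).a₂ := σ.commutes _
  have hσb : (σ : L →+* L) (W'⁄L).a₄ = (W'⁄L).a₄ := σ.commutes _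
  set cU : (A.ValueGroup)ˣ := valUnit A (algebraMap K₀ L c) hc0 with hcU
  have hcUp : cU ^ p = bUnit hyp ^ 2 := by
    apply Units.ext
    simp only [hcU, valUnit, bUnit, Units.val_pow_eq_pow_val, Units.val_mk0]
    exact hc
  -- small case: `0 < r`, `2 r < p`
  have small : ∀ r : ℕ, 0 < r → 2 * r < p → ∃ P₀ : (W'⁄L).Point, σ • P₀ = P₀ ∧
      φ P₀ = Additive.ofMul (QuotientGroup.mk (cU ^ r)) := by
    intro r hr0 hr
    have hx1 : A.valuation ((algebraMap K₀ L c) ^ r) < 1 := by
      rw [map_pow]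
      exact pow_lt_one₀ zero_le hvc1 hr0.ne'
    have hxb : A.valuation (W'⁄L).a₄ < A.valuation ((algebraMap K₀ L c) ^ r) := by
      by_contra h
      push Not at h
      have h2 : A.valuation ((algebraMap K₀ L c) ^ r) ^ 2 ≤ A.valuation (W'⁄L).a₄ ^ 2 :=
        pow_le_pow_left₀ zero_le h 2
      have h3 : A.valuation (algebraMap K₀ L c) ^ p < A.valuation (algebraMap K₀ L c) ^ (2 * r) :=
        pow_lt_pow_right_of_lt_one₀ (zero_lt_iff.2 hvc0) hvc1 hr
      rw [map_pow, ← pow_mul, mul_comm r 2] at h2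
      exact absurd (h3.trans_le h2) (by rw [hc]; exact lt_irrefl _)
    have hσx : (σ : L →+* L) ((algebraMap K₀ L c) ^ r) = (algebraMap K₀ L c) ^ r := by
      rw [map_pow]; congr 1
      exact σ.commutes c
    obtain ⟨y₀, hns, hbr, hσy⟩ := exists_fixed_branch_point hyp hb' β hβ (σ : L →+* L) hσr hσa hσb
      _ hσx hx1 hxb
    refine ⟨Point.some _ _ hns, ?_, ?_⟩
    · show Point.some (σ _) (σ y₀) _ = _
      have h1 : σ ((algebraMap K₀ L c) ^ r) = (algebraMap K₀ L c) ^ r := hσx
      have h2 : σ y₀ = y₀ := hσy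
      simp only [h1, h2]
    · rw [hφ _ _ hns (pow_ne_zero _ hc0) hxb hx1 hbr]
      congr 2
      apply Units.ext
      simp [hcU, valUnit, map_pow]
  -- all residues `r < p`
  have allr : ∀ r : ℕ, r < p → ∃ P₀ : (W'⁄L).Point, σ • P₀ = P₀ ∧
      φ P₀ = Additive.ofMul (QuotientGroup.mk (cU ^ r)) := by
    intro r hr
    rcases Nat.eq_zero_or_pos r with rfl | hr0
    · exact ⟨0, smul_zero σ, by simp⟩
    rcases lt_or_gt_of_ne (show 2 * r ≠ p from fun h => by
        obtain ⟨k, hk⟩ := hodd; omega) with h2 | h2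
    · exact small r hr0 h2
    · obtain ⟨P₀, hfix, hcomp⟩ := small (p - r) (by omega) (by omega)
      refine ⟨-P₀, by rw [smul_neg, hfix], ?_⟩
      rw [map_neg, hcomp, ← ofMul_inv, ← QuotientGroup.mk_inv]
      congr 1
      rw [QuotientGroup.eq]
      rw [inv_inv, ← pow_add, Nat.sub_add_cancel hr.le, hcUp]
      exact Subgroup.mem_zpowers _
  -- the component of `P`
  obtain ⟨g, hg⟩ := QuotientGroup.mk_surjective (Additive.toMul (φ P))
  have hgp : g ^ p ∈ Subgroup.zpowers (bUnit hyp ^ 2) := by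
    rw [← QuotientGroup.eq_one_iff, QuotientGroup.mk_pow, hg, ← toMul_nsmul, ← map_nsmul, hP',
      _root_.map_zero, toMul_zero]
  obtain ⟨k, hk⟩ := Subgroup.mem_zpowers_iff.1 hgp
  have hgk : g = cU ^ k := by
    have : g ^ p = (cU ^ k) ^ p := by
      rw [← hk, ← hcUp, ← zpow_natCast (cU ^ k) p, ← zpow_natCast cU p, ← zpow_mul, ← zpow_mul,
        mul_comm]
    exact pow_left_injective hp0 this
  have hpZ : (p : ℤ) ≠ 0 := by exact_mod_cast hp0
  obtain ⟨P₀, hfix, hcomp⟩ := allr (k % (p : ℤ)).toNat (by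
    have := Int.emod_lt_of_pos k (show (0 : ℤ) < p by omega)
    have := Int.emod_nonneg k hpZ
    omega)
  refine ⟨P₀, hfix, ?_⟩
  rw [hcomp]
  apply Additive.toMul.injective
  rw [toMul_ofMul, ← hg, hgk, QuotientGroup.eq]
  have hkr : cU ^ k = (bUnit hyp ^ 2) ^ (k / (p : ℤ)) * cU ^ (k % (p : ℤ)).toNat := by
    rw [← hcUp, ← zpow_natCast cU p, ← zpow_mul, ← zpow_natCast cU (k % (p : ℤ)).toNat,
      Int.toNat_of_nonneg (Int.emod_nonneg k hpZ), ← zpow_add, Int.mul_ediv_add_emod]
  rw [hkr, mul_comm, mul_inv_cancel_right]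
  exact Subgroup.zpow_mem _ (Subgroup.mem_zpowers _) _

/-- Good and multiplicative case together. -/
theorem core_E1 (hM1 : Stmt_M1 (L := L))
    (A : ValuationSubring L) (W' : Affine K₀) (hyp : ModelHyp A (W'⁄L))
    (p : ℕ) (hodd : Odd p)
    (c : K₀) (hc : A.valuation (algebraMap K₀ L c) ^ p = A.valuation (algebraMap K₀ L W'.a₄) ^ 2)
    (σ : L ≃ₐ[K₀] L) (hσv : ∀ x, A.valuation (σ x) = A.valuation x)
    (hσr : ∀ x, A.valuation x ≤ 1 → A.valuation (σ x - x) < 1)
    (P : (W'⁄L).Point) (hP : (p : ℤ) • P = 0) : S05.InE1 A (σ • P - P) := by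
  rcases lt_or_eq_of_le hyp.b_le with hb | hb
  · exact core_mult_E1 hM1 S05.H5.F2 A W' hyp hb p hodd c hc σ hσv hσr P hP
  · exact H55.smul_sub_inE1 S05.H5.F2 A W' hyp hb σ hσv hσr P

end core

/-! ### Assembly -/

section main

/-- Comparison of the kernels of reduction under the variable change `x = 4 X - e`. -/
lemma one_lt_val_fx_iff {A : ValuationSubring Qbar} (h2 : A.valuation (2 : Qbar) = 1)
    {r X : Qbar} (hr : A.valuation r ≤ 1) :
    1 < A.valuation (H14.fx (2 : Qbar) r X) ↔ X ∉ A := by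
  have h4 : A.valuation ((2 : Qbar) ^ 2 * X) = A.valuation X := by
    rw [map_mul, map_pow, h2, one_pow, one_mul]
  rw [H14.fx, ← A.valuation_le_one_iff, not_le]
  constructor
  · intro h
    by_contra hX
    rw [not_lt] at hX
    have : A.valuation ((2 : Qbar) ^ 2 * X + r) ≤ 1 :=
      A.valuation.map_add_le (by rw [h4]; exact hX) hr
    exact absurd h (not_lt.mpr this)
  · intro hX
    rw [A.valuation.map_add_eq_of_lt_left (by rw [h4]; exact lt_of_le_of_lt hr hX), h4]
    exact hX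

/-- (I6) from the component homomorphism of S05 (piece D, `Stmt_M1`). -/
theorem p_kernel_of_M1 (hM1 : ∀ (L : Type) [Field L] [DecidableEq L], Stmt_M1 (L := L)) :
    Stmt_p_kernel := by
  intro P A hA
  have hp2 : P.p ≠ 2 := by have := P.hp5; omega
  obtain ⟨e, c, he, hyp, heA, hc⟩ := arith_p P P.p P.pp hp2 A hA
  have hvc := H14.isVarChange_modelOf (L := Qbar) P.freyCurve rfl rfl rfl e he
  -- equivariance of the variable change
  have hΦσ : ∀ (σ : Gal) (Q : (P.freyCurve⁄Qbar).Point),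
      hvc.addEquiv (σ • Q) = σ • hvc.addEquiv Q := by
    intro σ Q
    rcases Q with _ | ⟨X, Y, hXY⟩
    · rfl
    · rw [WeierstrassCurve.Affine.Point.algEquiv_smul_def, Affine.Point.map_some,
        hvc.addEquiv_some, hvc.addEquiv_some,
        WeierstrassCurve.Affine.Point.algEquiv_smul_def, Affine.Point.map_some]
      apply H14.IsVarChange.some_congr
      · simp only [H14.fx, map_add, map_mul, map_pow, map_ofNat, AlgEquiv.coe_toAlgHom,
          AlgEquiv.commutes]
      · simp only [H14.fy, map_add, map_mul, map_pow, map_ofNat, _root_.map_zero, map_one,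
          AlgEquiv.coe_toAlgHom]
  -- comparison of the two kernels of reduction
  have hr : A.valuation (algebraMap ℚ Qbar (-e)) ≤ 1 := by
    rw [map_neg, Valuation.map_neg]; exact heA
  have hcmp : ∀ Q : (P.freyCurve⁄Qbar).Point,
      S05.InE1 A (hvc.addEquiv Q) ↔ S13.InE1 A Q := by
    intro Q
    rcases Q with _ | ⟨X, Y, hXY⟩
    · exact Iff.rfl
    · rw [hvc.addEquiv_some]
      exact one_lt_val_fx_iff hyp.two hr
  -- the kernel of reduction as a subgroup of `V`
  let T₀ : AddSubgroup (Vp P) :=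
    { carrier := {x | S05.InE1 A (hvc.addEquiv x.1)}
      zero_mem' := by
        show S05.InE1 A (hvc.addEquiv (0 : (P.freyCurve⁄Qbar).Point))
        rw [_root_.map_zero]; trivial
      add_mem' := by
        intro x y hx hy
        show S05.InE1 A (hvc.addEquiv (x.1 + y.1))
        rw [map_add]
        exact S05.H5.E1_add A _ hyp _ _ hx hy
      neg_mem' := by
        intro x hx
        show S05.InE1 A (hvc.addEquiv (-x.1))
        rw [map_neg]
        revert hx
        show S05.InE1 A (hvc.addEquiv x.1) → _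
        generalize hvc.addEquiv x.1 = Q
        intro hQ
        rcases Q with _ | ⟨X, Y, hXY⟩
        · exact hQ
        · exact hQ }
  refine ⟨AddSubgroup.toZModSubmodule P.p T₀, ?_, ?_⟩
  · intro x
    rw [AddSubgroup.mem_toZModSubmodule]
    exact hcmp x.1
  · intro σ hσ x
    rw [AddSubgroup.mem_toZModSubmodule]
    show S05.InE1 A (hvc.addEquiv (σ • x.1 - x.1))
    rw [map_sub, hΦσ]
    obtain ⟨hval, hres⟩ := S05.inertia A σ hσ
    have hx : (P.p : ℤ) • x.1 = 0 := by
      have := x.2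
      rwa [Submodule.mem_torsionBy_iff] at this
    have hΦx : (P.p : ℤ) • hvc.addEquiv x.1 = 0 :=
      (map_zsmul hvc.addEquiv (P.p : ℤ) x.1).symm.trans
        ((congrArg hvc.addEquiv hx).trans (_root_.map_zero hvc.addEquiv))
    exact core_E1 (hM1 Qbar) A (modelOf P.freyCurve e) hyp P.p P.hp_odd c hc σ hval hres _ hΦx

end main

end Fermat.Agent.S13.H87
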