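/-
S13, work package WP-p (helper87): interface (I6) `Stmt_p_kernel`, closed form.
-/
import Fermat.Agent.S13.H87_PKernel
import Fermat.Agent.S05.M1Final

set_option autoImplicit false

namespace Fermat.Agent.S13.H87

/-- (I6): at `A` over `p`, the kernel of reduction is a subspace `T` of `E[p]` and inertia acts
trivially on `E[p] / T`. -/
theorem p_kernel : Stmt_p_kernel :=
  p_kernel_of_M1 (fun _ _ _ => Fermat.Agent.S05.M1)

end Fermat.Agent.S13.H87
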