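/-
S13 T4 (helper63): assembly of S13 from the landed pieces.

`result_of_TP_I5` : from the torsion polynomial interface and (I5).
`result_all`      : everything plugged in.
-/
import Fermat.Agent.S13.Glue
import Fermat.Agent.S13.H63_CardOfTP
import Fermat.Agent.S13.H63_TPofPrePsi
import Fermat.Agent.S13.H63_Supersingular
import Fermat.Agent.S13.H46_TorsionPrePsi
import Fermat.Agent.S13.H87_PKernelFinal
import Fermat.Agent.S13.WP3.TwoUnipotent
import Fermat.Agent.S13.WP3.NoFixedPoint
import Fermat.Agent.Lib.FrobExists
import Fermat.Agent.Lib.Minkowski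
import Fermat.Agent.S05

set_option autoImplicit false

namespace Fermat.Agent.S13

open WeierstrassCurve WeierstrassCurve.Affine WeierstrassCurve.Affine.Point

/-- (I0) valuation subrings over every prime exist. -/
theorem stmt_exists_valuationSubring : Stmt_exists_valuationSubring :=
  fun ℓ hℓ => Fermat.Agent.Lib.FrobExists.exists_liesOverPrime ℓ hℓ

/-- (I3) is statement S05. -/
theorem stmt_S05 : Stmt_S05 :=
  fun P _ hq hq2 hqp => Fermat.Agent.S05.result P hq hq2 hqp

/-- S13 from the torsion polynomial interface and (I5). -/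
theorem result_of_TP_I5 (hTP : Stmt_torsion_poly) (h5 : Stmt_no_fixed_point)
    (P : FreyPackage)
    (hred : ¬ GaloisRepIsIrreducible (K := AlgebraicClosure ℚ) ℚ P.freyCurve P.p) :
    HasGaloisStableCofixedLine (K := AlgebraicClosure ℚ) ℚ P.freyCurve P.p :=
  result_of_inputs stmt_exists_valuationSubring
    (H63.card_of_torsion_poly hTP) (H63.nontrivial_of_torsion_poly hTP)
    stmt_S05 WP3.two_unipotent h5 H87.p_kernel
    (H63.p_supersingular_of_torsion_poly hTP (H63.card_of_torsion_poly hTP))
    Fermat.Agent.Lib.Minkowski.stmt_minkowski P hred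

/-- The torsion polynomial interface holds. -/
theorem stmt_torsion_poly : Stmt_torsion_poly :=
  H63.torsion_poly_of_preΨ stmt_torsion_preΨ

/-- S13, all inputs plugged in. -/
theorem result_all (P : FreyPackage)
    (hred : ¬ GaloisRepIsIrreducible (K := AlgebraicClosure ℚ) ℚ P.freyCurve P.p) :
    HasGaloisStableCofixedLine (K := AlgebraicClosure ℚ) ℚ P.freyCurve P.p :=
  result_of_TP_I5 stmt_torsion_poly WP3.H14.no_fixed_point P hred

end Fermat.Agent.S13
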