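/-
S13 / Lib item 57 (Wronskian route), step (B), concrete part 1 (helper12).

For a Weierstrass curve `W` over a field `F`:
* `D W : Derivation F W.CoordinateRing W.CoordinateRing`, the invariant derivation, with
  `D W (mk W (C X)) = mk W W.polynomialY` and `D W (mk W Y) = - mk W W.polynomialX`
  (constructed as the second component of an algebra map into the dual numbers);
* `evP h : W.CoordinateRing →ₐ[F] F`, evaluation at a point `(x, y)` of the curve, with
  `evP h (mk W g) = g.evalEval x y` and `ker (evP h) = XYIdeal W x (C y)`.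
-/
import Mathlib

set_option autoImplicit false

namespace Fermat.Agent.S13.H12.Deriv

open Polynomial WeierstrassCurve WeierstrassCurve.Affine
open scoped Polynomial.Bivariate

variable {F : Type*} [Field F] (W : Affine F)

/-- The class of `X` in the coordinate ring. -/
noncomputable def xR : W.CoordinateRing := CoordinateRing.mk W (C X)

/-- The class of `Y` in the coordinate ring. -/
noncomputable def yR : W.CoordinateRing := CoordinateRing.mk W Y

/-- The class of `∂W/∂Y = 2Y + a₁X + a₃`. -/
noncomputable def dxR : W.CoordinateRing := CoordinateRing.mk W W.polynomialY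

/-- The class of `-∂W/∂X = 3X² + 2a₂X + a₄ - a₁Y`. -/
noncomputable def dyR : W.CoordinateRing := - CoordinateRing.mk W W.polynomialX

theorem algebraMap_eq_mk (a : F) :
    algebraMap F W.CoordinateRing a = CoordinateRing.mk W (C (C a)) := rfl

theorem eqn_R : yR W ^ 2 + (algebraMap F _ W.a₁ * xR W + algebraMap F _ W.a₃) * yR W
    - (xR W ^ 3 + algebraMap F _ W.a₂ * xR W ^ 2 + algebraMap F _ W.a₄ * xR W + algebraMap F _ W.a₆) = 0 := by
  have h : CoordinateRing.mk W W.polynomial = 0 := AdjoinRoot.mk_self
  rw [← h]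
  simp only [xR, yR, Affine.polynomial, map_add, map_sub, map_mul, map_pow, algebraMap_eq_mk]

theorem dxR_eq : dxR W = 2 * yR W + algebraMap F _ W.a₁ * xR W + algebraMap F _ W.a₃ := by
  simp only [dxR, xR, yR, Affine.polynomialY, map_add, map_mul, algebraMap_eq_mk, map_ofNat]
  ring

theorem dyR_eq : dyR W = 3 * xR W ^ 2 + 2 * algebraMap F _ W.a₂ * xR W + algebraMap F _ W.a₄
    - algebraMap F _ W.a₁ * yR W := by
  have h3 : (C (3 : F) : F[X]) = 3 := map_ofNat C 3
  have h2 : (C (2 * W.a₂) : F[X]) = 2 * C W.a₂ := by rw [map_mul, map_ofNat C 2]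
  simp only [dyR, xR, yR, Affine.polynomialX, map_add, map_sub, map_mul, map_pow, algebraMap_eq_mk,
    h3, h2, map_ofNat]
  ring

/-- `X + (∂W/∂Y) ε`. -/
noncomputable def xT : TrivSqZeroExt W.CoordinateRing W.CoordinateRing :=
  TrivSqZeroExt.inl (xR W) + TrivSqZeroExt.inr (dxR W)

/-- `Y - (∂W/∂X) ε`. -/
noncomputable def yT : TrivSqZeroExt W.CoordinateRing W.CoordinateRing :=
  TrivSqZeroExt.inl (yR W) + TrivSqZeroExt.inr (dyR W)

theorem eval₂_polynomial_T :
    W.polynomial.eval₂ ((aeval (R := F) (xT W)) : F[X] →+* TrivSqZeroExt W.CoordinateRing W.CoordinateRing) (yT W) = 0 := by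
  simp only [Affine.polynomial, eval₂_add, eval₂_sub, eval₂_mul, eval₂_pow, eval₂_C, eval₂_X,
    RingHom.coe_coe, map_add, map_mul, map_pow, aeval_X, aeval_C]
  apply TrivSqZeroExt.ext
  · simp [xT, yT, TrivSqZeroExt.algebraMap_eq_inl']
    exact eqn_R W
  · simp [xT, yT, TrivSqZeroExt.algebraMap_eq_inl']
    rw [dxR_eq, dyR_eq]
    ring


/-- The `F`-algebra map `f ↦ f + (D f) ε` into the dual numbers over the coordinate ring. -/
noncomputable def toDual : W.CoordinateRing →ₐ[F] TrivSqZeroExt W.CoordinateRing W.CoordinateRing :=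
  AdjoinRoot.liftAlgHom W.polynomial (aeval (R := F) (xT W)) (yT W) (eval₂_polynomial_T W)

theorem fst_toDual (f : W.CoordinateRing) : (toDual W f).fst = f := by
  have h : (TrivSqZeroExt.fstHom F W.CoordinateRing W.CoordinateRing).comp (toDual W) =
      AlgHom.id F W.CoordinateRing := by
    apply AdjoinRoot.algHom_ext'
    · apply Polynomial.algHom_ext
      simp [toDual, xT, xR]
    · simp [toDual, yT, yR]
  exact congrArg (fun φ : W.CoordinateRing →ₐ[F] W.CoordinateRing => φ f) h


/-- The invariant derivation of the coordinate ring: `D X = ∂W/∂Y`, `D Y = -∂W/∂X`. -/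
noncomputable def D : Derivation F W.CoordinateRing W.CoordinateRing :=
  Derivation.mk' ((TrivSqZeroExt.sndHom W.CoordinateRing W.CoordinateRing).restrictScalars F ∘ₗ
      (toDual W).toLinearMap) (by
    intro a b
    simp only [LinearMap.coe_comp, Function.comp_apply, AlgHom.toLinearMap_apply, map_mul,
      LinearMap.coe_restrictScalars, TrivSqZeroExt.sndHom_apply, TrivSqZeroExt.snd_mul,
      fst_toDual, smul_eq_mul, MulOpposite.smul_eq_mul_unop, MulOpposite.unop_op]
    ring)

theorem D_apply (f : W.CoordinateRing) : D W f = (toDual W f).snd := rfl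

theorem D_xR : D W (xR W) = dxR W := by
  simp [D_apply, toDual, xR, xT]

theorem D_yR : D W (yR W) = dyR W := by
  simp [D_apply, toDual, yR, yT]

/-- Interface form. -/
theorem D_mk_C_X : D W (CoordinateRing.mk W (C X)) = CoordinateRing.mk W W.polynomialY := D_xR W

theorem D_mk_Y : D W (CoordinateRing.mk W Y) = - CoordinateRing.mk W W.polynomialX := D_yR W


/-! ### Evaluation at a point -/

variable {W}

theorem eval₂_polynomial_of_equation {x y : F} (h : W.Equation x y) :
    W.polynomial.eval₂ ((aeval (R := F) x : F[X] →ₐ[F] F) : F[X] →+* F) y = 0 := by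
  rw [Polynomial.coe_aeval_eq_evalRingHom, eval₂_evalRingHom]
  exact h

/-- Evaluation at a point of the curve, as an `F`-algebra map. -/
noncomputable def evP {x y : F} (h : W.Equation x y) : W.CoordinateRing →ₐ[F] F :=
  AdjoinRoot.liftAlgHom W.polynomial (aeval (R := F) x) y (eval₂_polynomial_of_equation h)

theorem evP_mk {x y : F} (h : W.Equation x y) (g : F[X][Y]) :
    evP h (CoordinateRing.mk W g) = g.evalEval x y := by
  change eval₂ ((aeval (R := F) x : F[X] →ₐ[F] F) : F[X] →+* F) y g = _
  rw [Polynomial.coe_aeval_eq_evalRingHom, eval₂_evalRingHom]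

theorem evP_XClass {x y : F} (h : W.Equation x y) : evP h (CoordinateRing.XClass W x) = 0 := by
  rw [CoordinateRing.XClass, evP_mk]; simp [evalEval]

theorem evP_YClass {x y : F} (h : W.Equation x y) :
    evP h (CoordinateRing.YClass W (C y)) = 0 := by
  rw [CoordinateRing.YClass, evP_mk]; simp [evalEval]

theorem XYIdeal_isMaximal {x y : F} (h : W.Equation x y) :
    (CoordinateRing.XYIdeal W x (C y)).IsMaximal :=
  Ideal.Quotient.maximal_of_isField _
    ((CoordinateRing.quotientXYIdealEquiv h).toRingEquiv.toMulEquiv.isField (Field.toIsField F))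

theorem ker_evP {x y : F} (h : W.Equation x y) :
    RingHom.ker (evP h : W.CoordinateRing →+* F) = CoordinateRing.XYIdeal W x (C y) := by
  symm
  apply (XYIdeal_isMaximal h).eq_of_le
  · exact RingHom.ker_ne_top _
  · rw [CoordinateRing.XYIdeal, Ideal.span_le]
    rintro f (rfl | rfl)
    · exact evP_XClass h
    · exact evP_YClass h

end Fermat.Agent.S13.H12.Deriv
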