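/-
S13 / Lib item 57 (Wronskian route), step (B), abstract part.

Abstract Taylor criterion.  `R` a commutative `F`-algebra, `ev : R →ₐ[F] F` an `F`-point with
kernel `𝔪`, `D` an `F`-derivation of `R`, `t ∈ 𝔪` a "uniformizer" (`ev (D t) ≠ 0` and
`𝔪 ≤ (t) ⊔ 𝔪²`).  Then, if `n !` is invertible in `F`,

  `f ∈ 𝔪 ^ n  ↔  ∀ i < n, ev (D^[i] f) = 0`.
-/
import Mathlib

set_option autoImplicit false

namespace Fermat.Agent.S13.H12.Taylor

variable {F R : Type*} [Field F] [CommRing R] [Algebra F R]
variable (ev : R →ₐ[F] F) (D : Derivation F R R)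

/-- The maximal ideal of the point. -/
abbrev maxI : Ideal R := RingHom.ker (ev : R →+* F)

theorem mem_maxI {f : R} : f ∈ maxI ev ↔ ev f = 0 := by
  simp [maxI, RingHom.mem_ker]

/-- A derivation lowers the order of vanishing by at most one. -/
theorem D_mem_pow (k : ℕ) : ∀ {f : R}, f ∈ maxI ev ^ (k + 1) → D f ∈ maxI ev ^ k := by
  induction k with
  | zero => intro f _; simp
  | succ k ih =>
    intro f hf
    rw [pow_succ] at hf
    refine Submodule.mul_induction_on hf ?_ ?_
    · intro a ha b hb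
      rw [Derivation.leibniz]
      refine Ideal.add_mem _ ?_ ?_
      · rw [smul_eq_mul]
        exact Ideal.mul_mem_right _ _ ha
      · rw [smul_eq_mul, mul_comm b, pow_succ]
        exact Ideal.mul_mem_mul (ih ha) hb
    · intro a b ha hb
      rw [map_add]
      exact Ideal.add_mem _ ha hb

theorem iterate_D_mem_pow (i k : ℕ) : ∀ {f : R}, f ∈ maxI ev ^ (k + i) → D^[i] f ∈ maxI ev ^ k := by
  induction i with
  | zero => intro f hf; simpa using hf
  | succ i ih =>
    intro f hf
    rw [Function.iterate_succ_apply]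
    apply ih
    apply D_mem_pow ev D
    rw [add_assoc]
    exact hf

/-- Easy direction: elements of `𝔪 ^ n` have vanishing Taylor coefficients of order `< n`. -/
theorem ev_iterate_eq_zero {n : ℕ} {f : R} (hf : f ∈ maxI ev ^ n) {i : ℕ} (hi : i < n) :
    ev (D^[i] f) = 0 := by
  have h1 : f ∈ maxI ev ^ (1 + i) := Ideal.pow_le_pow_right (by omega) hf
  have h2 := iterate_D_mem_pow ev D i 1 h1
  rw [pow_one] at h2
  exact (mem_maxI ev).mp h2

/-- `D^[n] (a * t ^ n) ≡ n ! * a * (D t) ^ n` modulo `𝔪`, for `t ∈ 𝔪`. -/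
theorem iterate_D_mul_pow {t : R} (ht : t ∈ maxI ev) (n : ℕ) :
    ∀ a : R, ev (D^[n] (a * t ^ n)) = (n.factorial : F) * (ev a * ev (D t) ^ n) := by
  induction n with
  | zero => intro a; simp
  | succ n ih =>
    intro a
    rw [Function.iterate_succ_apply]
    have h1 : D (a * t ^ (n + 1)) = (D a * t) * t ^ n + ((n + 1 : ℕ) : R) * ((a * D t) * t ^ n) := by
      rw [Derivation.leibniz, Derivation.leibniz_pow]
      simp only [smul_eq_mul, nsmul_eq_mul, Nat.add_sub_cancel]
      ring
    rw [h1, iterate_map_add]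
    have h2 : (D : R → R)^[n] (((n + 1 : ℕ) : R) * ((a * D t) * t ^ n)) =
        ((n + 1 : ℕ) : R) * (D : R → R)^[n] ((a * D t) * t ^ n) := by
      have : ∀ (m : ℕ) (c : ℕ) (g : R), (D : R → R)^[m] ((c : R) * g) = (c : R) * (D : R → R)^[m] g := by
        intro m c g
        induction m generalizing g with
        | zero => simp
        | succ m ihm =>
          rw [Function.iterate_succ_apply, Function.iterate_succ_apply]
          have : D ((c : R) * g) = (c : R) * D g := by
            rw [← nsmul_eq_mul, map_nsmul, nsmul_eq_mul]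
          rw [this, ihm]
      exact this n (n + 1) _
    rw [h2, map_add, map_mul, ih (a * D t)]
    have h3 : ev ((D : R → R)^[n] ((D a * t) * t ^ n)) = 0 := by
      apply ev_iterate_eq_zero ev D (n := n + 1) _ (Nat.lt_succ_self n)
      rw [pow_succ, mul_comm (maxI ev ^ n)]
      exact Ideal.mul_mem_mul (Ideal.mul_mem_left _ _ ht) (Ideal.pow_mem_pow ht n)
    rw [h3, zero_add, map_natCast, map_mul, Nat.factorial_succ]
    push_cast
    ring

variable {ev D}

/-- Powers of a uniformizer generate `𝔪 ^ n` modulo `𝔪 ^ (n + 1)`. -/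
theorem exists_sub_mul_pow_mem {t : R} (ht : t ∈ maxI ev)
    (hunif : maxI ev ≤ Ideal.span {t} ⊔ maxI ev ^ 2) (n : ℕ) :
    ∀ {f : R}, f ∈ maxI ev ^ n → ∃ a : R, f - a * t ^ n ∈ maxI ev ^ (n + 1) := by
  induction n with
  | zero => 
    intro f _
    refine ⟨f, ?_⟩
    simp
  | succ n ih =>
    intro f hf
    rw [pow_succ] at hf
    refine Submodule.mul_induction_on hf ?_ ?_
    · intro g hg b hb
      obtain ⟨a, ha⟩ := ih hg
      obtain ⟨c, hc, d, hd, hcd⟩ := Submodule.mem_sup.mp (hunif hb)
      obtain ⟨c', rfl⟩ := Ideal.mem_span_singleton'.mp hc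
      refine ⟨a * c', ?_⟩
      have e : g * b - a * c' * t ^ (n + 1) =
          (g - a * t ^ n) * b + a * t ^ n * d := by
        rw [← hcd]; ring
      rw [e]
      refine Ideal.add_mem _ ?_ ?_
      · rw [pow_succ (maxI ev) (n + 1)]
        exact Ideal.mul_mem_mul ha hb
      · have : maxI ev ^ (n + 1 + 1) = maxI ev ^ n * maxI ev ^ 2 := by
          rw [← pow_add]
        rw [this]
        exact Ideal.mul_mem_mul (Ideal.mul_mem_left _ _ (Ideal.pow_mem_pow ht n)) hd
    · intro g g' ⟨a, ha⟩ ⟨a', ha'⟩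
      refine ⟨a + a', ?_⟩
      have e : g + g' - (a + a') * t ^ (n + 1) = (g - a * t ^ (n + 1)) + (g' - a' * t ^ (n + 1)) := by
        ring
      rw [e]
      exact Ideal.add_mem _ ha ha'

/-- **Taylor criterion.** -/
theorem mem_pow_iff {t : R} (ht : t ∈ maxI ev) (hDt : ev (D t) ≠ 0)
    (hunif : maxI ev ≤ Ideal.span {t} ⊔ maxI ev ^ 2) (n : ℕ)
    (hn : (n.factorial : F) ≠ 0) (f : R) :
    f ∈ maxI ev ^ n ↔ ∀ i < n, ev (D^[i] f) = 0 := by
  constructor
  · intro hf i hi
    exact ev_iterate_eq_zero ev D hf hi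
  · induction n with
    | zero => intro _; simp
    | succ n ih =>
      intro h
      have hn' : (n.factorial : F) ≠ 0 := by
        intro h0
        apply hn
        rw [Nat.factorial_succ, Nat.cast_mul, h0, mul_zero]
      have hf : f ∈ maxI ev ^ n := ih hn' fun i hi => h i (Nat.lt_succ_of_lt hi)
      obtain ⟨a, ha⟩ := exists_sub_mul_pow_mem ht hunif n hf
      have h1 : ev (D^[n] (f - a * t ^ n)) = 0 :=
        ev_iterate_eq_zero ev D ha (Nat.lt_succ_self n)
      have h2 : (D : R → R)^[n] (f - a * t ^ n) = D^[n] f - D^[n] (a * t ^ n) := by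
        exact iterate_map_sub D n f (a * t ^ n)
      rw [h2, map_sub, h n (Nat.lt_succ_self n), zero_sub, neg_eq_zero,
        iterate_D_mul_pow ev D ht n a] at h1
      have h3 : ev a = 0 := by
        rcases mul_eq_zero.mp h1 with h | h
        · exact absurd h hn'
        · rcases mul_eq_zero.mp h with h | h
          · exact h
          · exact absurd h (pow_ne_zero n hDt)
      have h4 : a * t ^ n ∈ maxI ev ^ (n + 1) := by
        rw [pow_succ, mul_comm (maxI ev ^ n)]
        exact Ideal.mul_mem_mul ((mem_maxI ev).mpr h3) (Ideal.pow_mem_pow ht n)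
      have : f = (f - a * t ^ n) + a * t ^ n := by ring
      rw [this]
      exact Ideal.add_mem _ ha h4

end Fermat.Agent.S13.H12.Taylor
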