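/-
S13 / Lib item 57 (Wronskian route), step (B), abstract part 2 (helper12).

In the setting of `H12_Taylor` (`ev : R →ₐ[F] F`, `D : Derivation F R R`, uniformizer `t`):
the Taylor-coefficient map `f ↦ (ev (D^[i] f))_{i < n}` is surjective with kernel `𝔪 ^ n`, hence
`dim_F R ⧸ 𝔪 ^ n = n` (when `n !` is invertible in `F`).
-/
import Fermat.Agent.S13.H12_Taylor

set_option autoImplicit false

namespace Fermat.Agent.S13.H12.Taylor

variable {F R : Type*} [Field F] [CommRing R] [Algebra F R]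
variable (ev : R →ₐ[F] F) (D : Derivation F R R)

/-- The `F`-linear map of Taylor coefficients `f ↦ (ev (D^[i] f))_{i < n}`. -/
noncomputable def taylorMap (n : ℕ) : R →ₗ[F] (Fin n → F) :=
  LinearMap.pi fun i => ev.toLinearMap ∘ₗ ((D : R →ₗ[F] R) ^ (i : ℕ))

theorem taylorMap_apply (n : ℕ) (f : R) (i : Fin n) :
    taylorMap ev D n f i = ev (D^[i] f) := by
  simp [taylorMap, Module.End.pow_apply]

variable {ev D}

theorem ker_taylorMap {t : R} (ht : t ∈ maxI ev) (hDt : ev (D t) ≠ 0)
    (hunif : maxI ev ≤ Ideal.span {t} ⊔ maxI ev ^ 2) (n : ℕ)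
    (hn : (n.factorial : F) ≠ 0) :
    LinearMap.ker (taylorMap ev D n) = (maxI ev ^ n).restrictScalars F := by
  ext f
  rw [LinearMap.mem_ker, Submodule.restrictScalars_mem, mem_pow_iff ht hDt hunif n hn f]
  constructor
  · intro h i hi
    have := congrFun h ⟨i, hi⟩
    rwa [taylorMap_apply] at this
  · intro h
    funext i
    rw [taylorMap_apply]
    exact h i i.2

theorem taylorMap_surjective {t : R} (ht : t ∈ maxI ev) (hDt : ev (D t) ≠ 0)
    (n : ℕ) (hn : (n.factorial : F) ≠ 0) :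
    Function.Surjective (taylorMap ev D n) := by
  intro c
  have key : ∀ m ≤ n, ∃ f : R, ∀ i : Fin n, (i : ℕ) < m → ev (D^[i] f) = c i := by
    intro m
    induction m with
    | zero => intro _; exact ⟨0, fun i hi => absurd hi (Nat.not_lt_zero _)⟩
    | succ m ih =>
      intro hm
      obtain ⟨f, hf⟩ := ih (Nat.le_of_succ_le hm)
      have hm' : ((m.factorial : ℕ) : F) ≠ 0 := by
        intro h0
        apply hn
        obtain ⟨k, hk⟩ := Nat.factorial_dvd_factorial (Nat.le_of_succ_le hm)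
        rw [hk, Nat.cast_mul, h0, zero_mul]
      set u : F := (m.factorial : F) * ev (D t) ^ m with hu
      have hu0 : u ≠ 0 := mul_ne_zero hm' (pow_ne_zero m hDt)
      set a : F := (c ⟨m, hm⟩ - ev (D^[m] f)) / u with ha
      refine ⟨f + algebraMap F R a * t ^ m, ?_⟩
      intro i hi
      rw [iterate_map_add, map_add]
      rcases Nat.lt_succ_iff_lt_or_eq.mp hi with hlt | heq
      · rw [hf i hlt]
        have : algebraMap F R a * t ^ m ∈ maxI ev ^ m :=
          Ideal.mul_mem_left _ _ (Ideal.pow_mem_pow ht m)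
        rw [ev_iterate_eq_zero ev D this hlt, add_zero]
      · have hi' : i = ⟨m, hm⟩ := Fin.ext heq
        subst hi'
        simp only
        rw [iterate_D_mul_pow ev D ht m, AlgHom.commutes]
        simp only [Algebra.algebraMap_self, RingHom.id_apply]
        rw [ha]
        field_simp
        ring
  obtain ⟨f, hf⟩ := key n le_rfl
  refine ⟨f, ?_⟩
  funext i
  rw [taylorMap_apply]
  exact hf i i.2

/-- `dim_F R / 𝔪 ^ n = n`. -/
theorem finrank_quot_pow {t : R} (ht : t ∈ maxI ev) (hDt : ev (D t) ≠ 0)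
    (hunif : maxI ev ≤ Ideal.span {t} ⊔ maxI ev ^ 2) (n : ℕ)
    (hn : (n.factorial : F) ≠ 0) :
    Module.finrank F (R ⧸ maxI ev ^ n) = n := by
  have e1 : (R ⧸ LinearMap.ker (taylorMap ev D n)) ≃ₗ[F] (Fin n → F) :=
    LinearMap.quotKerEquivOfSurjective _ (taylorMap_surjective ht hDt n hn)
  have e2 : (R ⧸ (maxI ev ^ n).restrictScalars F) ≃ₗ[F] (R ⧸ maxI ev ^ n) :=
    Submodule.Quotient.restrictScalarsEquiv F (maxI ev ^ n)
  rw [← e2.finrank_eq, ← ker_taylorMap ht hDt hunif n hn, e1.finrank_eq]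
  simp

end Fermat.Agent.S13.H12.Taylor
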