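/-
Lib item 57 (Wronskian route), step (B), concrete part 2 (helper12).

For a nonsingular point `P = (x, y)` of a Weierstrass curve `W` over a field `F`, with
`𝔪_P = XYIdeal W x (C y)`, `D = D W` the invariant derivation and `evP` evaluation at `P`:
* `exists_uniformizer`;
* `mem_pow_iff_D`: if `n !` is invertible, `f ∈ 𝔪_P ^ n ↔ ∀ i < n, evP ((D W)^[i] f) = 0`;
* `finrank_quot_XYIdeal_pow`: `dim_F F[W] ⧸ 𝔪_P ^ n = n`.
-/
import Fermat.Agent.S13.H12_TaylorRank
import Fermat.Agent.S13.H12_Derivation

set_option autoImplicit false

namespace Fermat.Agent.S13.H12.Deriv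

open Polynomial WeierstrassCurve WeierstrassCurve.Affine
open scoped Polynomial.Bivariate
open Fermat.Agent.S13.H12.Taylor

variable {F : Type*} [Field F] {W : Affine F}

theorem XClass_eq (x : F) : CoordinateRing.XClass W x = xR W - algebraMap F _ x := by
  simp only [CoordinateRing.XClass, xR, map_sub, algebraMap_eq_mk]

theorem YClass_eq (y : F) : CoordinateRing.YClass W (C y) = yR W - algebraMap F _ y := by
  simp only [CoordinateRing.YClass, yR, map_sub, algebraMap_eq_mk]

theorem D_XClass (x : F) : D W (CoordinateRing.XClass W x) = CoordinateRing.mk W W.polynomialY := by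
  rw [XClass_eq, map_sub, Derivation.map_algebraMap, sub_zero, D_xR]
  rfl

theorem D_YClass (y : F) :
    D W (CoordinateRing.YClass W (C y)) = - CoordinateRing.mk W W.polynomialX := by
  rw [YClass_eq, map_sub, Derivation.map_algebraMap, sub_zero, D_yR]
  rfl

/-- Taylor expansion of the Weierstrass equation at a point of the curve. -/
theorem taylor_equation {x y : F} (h : W.Equation x y) :
    algebraMap F W.CoordinateRing (W.polynomialY.evalEval x y) * CoordinateRing.YClass W (C y) +
    algebraMap F W.CoordinateRing (W.polynomialX.evalEval x y) * CoordinateRing.XClass W x +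
    (CoordinateRing.YClass W (C y) * CoordinateRing.YClass W (C y)
      + (algebraMap F _ W.a₁ * CoordinateRing.XClass W x) * CoordinateRing.YClass W (C y)
      - (algebraMap F _ (3 * x + W.a₂) * CoordinateRing.XClass W x) * CoordinateRing.XClass W x
      - (CoordinateRing.XClass W x * CoordinateRing.XClass W x) * CoordinateRing.XClass W x) = 0 := by
  have h1 := eqn_R W
  have h2 := congrArg (algebraMap F W.CoordinateRing) ((W.equation_iff' x y).mp h)
  rw [evalEval_polynomialY, evalEval_polynomialX, XClass_eq, YClass_eq]
  simp only [map_add, map_sub, map_mul, map_pow, map_ofNat, map_zero] at h2 ⊢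
  linear_combination h1 - h2


theorem XClass_mem_maxI {x y : F} (h : W.Equation x y) :
    CoordinateRing.XClass W x ∈ maxI (evP h) := (mem_maxI _).mpr (evP_XClass h)

theorem YClass_mem_maxI {x y : F} (h : W.Equation x y) :
    CoordinateRing.YClass W (C y) ∈ maxI (evP h) := (mem_maxI _).mpr (evP_YClass h)

theorem maxI_evP {x y : F} (h : W.Equation x y) :
    maxI (evP h) = CoordinateRing.XYIdeal W x (C y) := ker_evP h

/-- The quadratic part of the Taylor expansion lies in `𝔪 ^ 2`. -/
theorem quad_mem {x y : F} (h : W.Equation x y) :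
    (CoordinateRing.YClass W (C y) * CoordinateRing.YClass W (C y)
      + (algebraMap F _ W.a₁ * CoordinateRing.XClass W x) * CoordinateRing.YClass W (C y)
      - (algebraMap F _ (3 * x + W.a₂) * CoordinateRing.XClass W x) * CoordinateRing.XClass W x
      - (CoordinateRing.XClass W x * CoordinateRing.XClass W x) * CoordinateRing.XClass W x)
      ∈ maxI (evP h) ^ 2 := by
  have hu := XClass_mem_maxI h
  have hv := YClass_mem_maxI h
  rw [pow_two]
  refine Ideal.sub_mem _ (Ideal.sub_mem _ (Ideal.add_mem _ ?_ ?_) ?_) ?_
  · exact Ideal.mul_mem_mul hv hv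
  · exact Ideal.mul_mem_mul (Ideal.mul_mem_left _ _ hu) hv
  · exact Ideal.mul_mem_mul (Ideal.mul_mem_left _ _ hu) hu
  · exact Ideal.mul_mem_mul (Ideal.mul_mem_left _ _ hu) hu

/-- Existence of a uniformizer at a nonsingular point. -/
theorem exists_uniformizer {x y : F} (h : W.Nonsingular x y) :
    ∃ t : W.CoordinateRing, t ∈ maxI (evP h.1) ∧ evP h.1 (D W t) ≠ 0 ∧
      maxI (evP h.1) ≤ Ideal.span {t} ⊔ maxI (evP h.1) ^ 2 := by
  have hT := taylor_equation h.1
  have hQ := quad_mem h.1
  have hle : maxI (evP h.1) =
      Ideal.span {CoordinateRing.XClass W x, CoordinateRing.YClass W (C y)} := by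
    rw [maxI_evP]; rfl
  rcases h.2 with hX | hY
  · -- `W_X(P) ≠ 0`: uniformizer `v = Y - y`
    refine ⟨CoordinateRing.YClass W (C y), YClass_mem_maxI h.1, ?_, ?_⟩
    · rw [D_YClass, map_neg, evP_mk]
      exact neg_ne_zero.mpr hX
    · have hvmem : CoordinateRing.YClass W (C y) ∈
          Ideal.span {CoordinateRing.YClass W (C y)} ⊔ maxI (evP h.1) ^ 2 :=
        Ideal.mem_sup_left (Ideal.subset_span rfl)
      have humem : CoordinateRing.XClass W x ∈
          Ideal.span {CoordinateRing.YClass W (C y)} ⊔ maxI (evP h.1) ^ 2 := by
        have hcc : algebraMap F W.CoordinateRing (W.polynomialX.evalEval x y)⁻¹ *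
            algebraMap F _ (W.polynomialX.evalEval x y) = 1 := by
          rw [← map_mul, inv_mul_cancel₀ hX, map_one]
        have e : CoordinateRing.XClass W x =
            algebraMap F _ (-(W.polynomialX.evalEval x y)⁻¹ * W.polynomialY.evalEval x y) *
              CoordinateRing.YClass W (C y)
            + algebraMap F _ (-(W.polynomialX.evalEval x y)⁻¹) *
            (CoordinateRing.YClass W (C y) * CoordinateRing.YClass W (C y)
              + (algebraMap F _ W.a₁ * CoordinateRing.XClass W x) * CoordinateRing.YClass W (C y)
              - (algebraMap F _ (3 * x + W.a₂) * CoordinateRing.XClass W x) *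
                  CoordinateRing.XClass W x
              - (CoordinateRing.XClass W x * CoordinateRing.XClass W x) *
                  CoordinateRing.XClass W x) := by
          simp only [map_mul, map_neg]
          linear_combination
            (algebraMap F W.CoordinateRing (W.polynomialX.evalEval x y)⁻¹) * hT -
              CoordinateRing.XClass W x * hcc
        rw [e]
        exact Ideal.add_mem _ (Ideal.mul_mem_left _ _ hvmem)
          (Ideal.mem_sup_right (Ideal.mul_mem_left _ _ hQ))
      intro f hf
      rw [hle] at hf
      refine Ideal.span_le.mpr ?_ hf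
      rintro g (rfl | rfl)
      · exact humem
      · exact hvmem
  · -- `W_Y(P) ≠ 0`: uniformizer `u = X - x`
    refine ⟨CoordinateRing.XClass W x, XClass_mem_maxI h.1, ?_, ?_⟩
    · rw [D_XClass, evP_mk]
      exact hY
    · have humem : CoordinateRing.XClass W x ∈
          Ideal.span {CoordinateRing.XClass W x} ⊔ maxI (evP h.1) ^ 2 :=
        Ideal.mem_sup_left (Ideal.subset_span rfl)
      have hvmem : CoordinateRing.YClass W (C y) ∈
          Ideal.span {CoordinateRing.XClass W x} ⊔ maxI (evP h.1) ^ 2 := by
        have hcc : algebraMap F W.CoordinateRing (W.polynomialY.evalEval x y)⁻¹ *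
            algebraMap F _ (W.polynomialY.evalEval x y) = 1 := by
          rw [← map_mul, inv_mul_cancel₀ hY, map_one]
        have e : CoordinateRing.YClass W (C y) =
            algebraMap F _ (-(W.polynomialY.evalEval x y)⁻¹ * W.polynomialX.evalEval x y) *
              CoordinateRing.XClass W x
            + algebraMap F _ (-(W.polynomialY.evalEval x y)⁻¹) *
            (CoordinateRing.YClass W (C y) * CoordinateRing.YClass W (C y)
              + (algebraMap F _ W.a₁ * CoordinateRing.XClass W x) * CoordinateRing.YClass W (C y)
              - (algebraMap F _ (3 * x + W.a₂) * CoordinateRing.XClass W x) *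
                  CoordinateRing.XClass W x
              - (CoordinateRing.XClass W x * CoordinateRing.XClass W x) *
                  CoordinateRing.XClass W x) := by
          simp only [map_mul, map_neg]
          linear_combination
            (algebraMap F W.CoordinateRing (W.polynomialY.evalEval x y)⁻¹) * hT -
              CoordinateRing.YClass W (C y) * hcc
        rw [e]
        exact Ideal.add_mem _ (Ideal.mul_mem_left _ _ humem)
          (Ideal.mem_sup_right (Ideal.mul_mem_left _ _ hQ))
      intro f hf
      rw [hle] at hf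
      refine Ideal.span_le.mpr ?_ hf
      rintro g (rfl | rfl)
      · exact humem
      · exact hvmem

/-- **Derivation criterion** for the order of vanishing at a nonsingular point. -/
theorem mem_pow_iff_D {x y : F} (h : W.Nonsingular x y) (n : ℕ) (hn : (n.factorial : F) ≠ 0)
    (f : W.CoordinateRing) :
    f ∈ CoordinateRing.XYIdeal W x (C y) ^ n ↔ ∀ i < n, evP h.1 ((D W)^[i] f) = 0 := by
  obtain ⟨t, ht, hDt, hunif⟩ := exists_uniformizer h
  rw [← maxI_evP h.1]
  exact mem_pow_iff ht hDt hunif n hn f

/-- `dim_F F[W] / 𝔪_P ^ n = n` at a nonsingular point. -/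
theorem finrank_quot_XYIdeal_pow {x y : F} (h : W.Nonsingular x y) (n : ℕ)
    (hn : (n.factorial : F) ≠ 0) :
    Module.finrank F (W.CoordinateRing ⧸ CoordinateRing.XYIdeal W x (C y) ^ n) = n := by
  obtain ⟨t, ht, hDt, hunif⟩ := exists_uniformizer h
  rw [← maxI_evP h.1]
  exact finrank_quot_pow ht hDt hunif n hn

end Fermat.Agent.S13.H12.Deriv
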