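/-
S13 / item 57 (Wronskian route), step (D), helper37: the explicit POLYNOMIAL Wronskian.

Model `y² = f(x)`, `f` a monic cubic, `D x = 2y`, `D y = f'(x)`.
`D (g) = (2 g')·y` and `D (g·y) = 2 g' f + g f'`, so `D^i (x^k y^τ) = P·y^(τ xor (i odd))` with
`P = iterD f τ (X^k) i ∈ R[X]`.  Pulling `y` out of the odd rows and odd columns gives a matrix
`wronMatrix f n` of polynomials in `x` whose determinant `wronPoly f n` is the Wronskian
`det (D^i e_j)_{i,j<n}` (`n` odd) of the basis `e_j = 1, x, y, x², xy, …` (pole orders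
`nu j = 0, 2, 3, 4, …`).

Main results (namespace `Fermat.Agent.S13.H37`):
* `det_natDegree_le_and_coeff`  : degree bound + top coefficient of a polynomial determinant;
* `wronPoly_natDegree_le`, `wronPoly_coeff_eq_vandermonde`, `wronDeg_eq`;
* `wronPoly_natDegree`          : char 0 domain: `natDegree = wronDeg n`, `leadingCoeff = ∏_{i<j} (nu j - nu i)`;
* `wronPoly_int_prime`          : over `ℤ`, `n = p` odd prime: `natDegree = (p²-1)/2`,
                                  `leadingCoeff = p·u`, `p ∤ u`;
* `wronPoly_map`                : compatibility with ring homomorphisms;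
* `det_iterate_eq_aeval_wronPoly` : the bridge to a derivation on a domain with `y² = f(x)`.
-/
import Mathlib.LinearAlgebra.Vandermonde
import Mathlib.LinearAlgebra.Matrix.Polynomial
import Mathlib.Algebra.Polynomial.Derivative
import Mathlib.Algebra.Polynomial.BigOperators
import Mathlib.RingTheory.Polynomial.Pochhammer
import Mathlib.RingTheory.Derivation.Basic
import Mathlib.Data.Nat.Prime.Int
import Mathlib.Algebra.BigOperators.Associated

set_option autoImplicit false

namespace Fermat.Agent.S13.H37

open Polynomial Finset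

section detdeg

variable {R : Type*} [CommRing R] {ι : Type*}

/-- Top coefficient of a product with individual degree bounds. -/
theorem coeff_prod_sum_of_natDegree_le (s : Finset ι) (f : ι → R[X]) (d : ι → ℕ)
    (h : ∀ i ∈ s, (f i).natDegree ≤ d i) :
    (∏ i ∈ s, f i).natDegree ≤ ∑ i ∈ s, d i ∧
      (∏ i ∈ s, f i).coeff (∑ i ∈ s, d i) = ∏ i ∈ s, (f i).coeff (d i) := by
  classical
  induction s using Finset.induction_on with
  | empty => simp
  | insert a s ha ih =>
    have hs : ∀ i ∈ s, (f i).natDegree ≤ d i := fun i hi => h i (Finset.mem_insert_of_mem hi)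
    obtain ⟨ih1, ih2⟩ := ih hs
    have ha' : (f a).natDegree ≤ d a := h a (Finset.mem_insert_self a s)
    rw [Finset.prod_insert ha, Finset.sum_insert ha, Finset.prod_insert ha]
    refine ⟨(natDegree_mul_le).trans (Nat.add_le_add ha' ih1), ?_⟩
    rw [coeff_mul_add_eq_of_natDegree_le ha' ih1, ih2]

variable [Fintype ι] [DecidableEq ι]

/-- Degree bound and top coefficient of the determinant of a polynomial matrix whose entries
satisfy `natDegree (M i j) ≤ r i + c j`. -/
theorem det_natDegree_le_and_coeff (M : Matrix ι ι R[X]) (r c : ι → ℕ)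
    (h : ∀ i j, (M i j).natDegree ≤ r i + c j) :
    M.det.natDegree ≤ ∑ i, r i + ∑ j, c j ∧
      M.det.coeff (∑ i, r i + ∑ j, c j) =
        (Matrix.of fun i j => (M i j).coeff (r i + c j)).det := by
  have key : ∀ σ : Equiv.Perm ι,
      (∏ i, M (σ i) i).natDegree ≤ ∑ i, r i + ∑ j, c j ∧
      (∏ i, M (σ i) i).coeff (∑ i, r i + ∑ j, c j) = ∏ i, (M (σ i) i).coeff (r (σ i) + c i) := by
    intro σ
    have hsum : ∑ i, (r (σ i) + c i) = ∑ i, r i + ∑ j, c j := by
      rw [Finset.sum_add_distrib, Equiv.sum_comp σ r]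
    have := coeff_prod_sum_of_natDegree_le (Finset.univ) (fun i => M (σ i) i)
      (fun i => r (σ i) + c i) (fun i _ => h (σ i) i)
    rw [hsum] at this
    exact this
  constructor
  · rw [Matrix.det_apply]
    refine natDegree_sum_le_of_forall_le _ _ (fun σ _ => ?_)
    rcases Int.units_eq_one_or (Equiv.Perm.sign σ) with hs | hs
    · rw [hs, one_smul]; exact (key σ).1
    · rw [hs, Units.neg_smul, one_smul, natDegree_neg]; exact (key σ).1
  · rw [Matrix.det_apply, Matrix.det_apply, finsetSum_coeff]
    refine Finset.sum_congr rfl (fun σ _ => ?_)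
    rcases Int.units_eq_one_or (Equiv.Perm.sign σ) with hs | hs
    · rw [hs, one_smul, one_smul, (key σ).2]
      rfl
    · rw [hs, Units.neg_smul, one_smul, Units.neg_smul, one_smul, coeff_neg, (key σ).2]
      rfl

end detdeg

section defs

variable {R : Type*} [CommRing R]

/-- One application of the invariant derivation on `y² = f(x)` (`D x = 2y`, `D y = f'`) to
`g(x)·y^ε`: `D g = (2 g')·y` and `D (g·y) = 2 g' f + g f'`. -/
noncomputable def stepD (f : R[X]) (ε : Bool) (g : R[X]) : R[X] :=
  if ε then 2 * derivative g * f + g * derivative f else 2 * derivative g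

/-- `D^i (g·y^ε) = iterD f ε g i · y^(ε xor (i odd))`. -/
noncomputable def iterD (f : R[X]) (ε : Bool) (g : R[X]) : ℕ → R[X]
  | 0 => g
  | (i + 1) => stepD f (ε ^^ i.bodd) (iterD f ε g i)

@[simp] theorem iterD_zero (f : R[X]) (ε : Bool) (g : R[X]) : iterD f ε g 0 = g := rfl

theorem iterD_succ (f : R[X]) (ε : Bool) (g : R[X]) (i : ℕ) :
    iterD f ε g (i + 1) = stepD f (ε ^^ i.bodd) (iterD f ε g i) := rfl

theorem stepD_zero (f : R[X]) (ε : Bool) : stepD f ε 0 = 0 := by
  cases ε <;> simp [stepD]

theorem iterD_of_eq_zero (f : R[X]) (ε : Bool) : ∀ i, iterD f ε 0 i = 0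
  | 0 => rfl
  | (i + 1) => by rw [iterD_succ, iterD_of_eq_zero f ε i, stepD_zero]

theorem stepD_false_natDegree (f g : R[X]) (d : ℕ) (hg : g.natDegree ≤ d + 1) :
    (stepD f false g).natDegree ≤ d ∧
      (stepD f false g).coeff d = ((2 * (d + 1) : ℕ) : R) * g.coeff (d + 1) := by
  have h2 : (2 : R[X]) = C (2 : R) := (map_ofNat C 2).symm
  simp only [stepD, Bool.false_eq_true, if_false]
  constructor
  · rw [h2]
    refine (natDegree_C_mul_le _ _).trans ?_
    exact (natDegree_derivative_le g).trans (by omega)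
  · rw [h2, coeff_C_mul, coeff_derivative]
    push_cast
    ring

theorem stepD_true_natDegree (f g : R[X]) (hf : f.Monic) (hf3 : f.natDegree = 3) (d : ℕ)
    (hg : g.natDegree ≤ d) :
    (stepD f true g).natDegree ≤ d + 2 ∧
      (stepD f true g).coeff (d + 2) = ((2 * d + 3 : ℕ) : R) * g.coeff d := by
  have h2 : (2 : R[X]) = C (2 : R) := (map_ofNat C 2).symm
  have hf3c : f.coeff 3 = 1 := by
    have := hf.coeff_natDegree
    rwa [hf3] at this
  have hd1 : (derivative g).natDegree ≤ d - 1 := (natDegree_derivative_le g).trans (by omega)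
  have hdf : (derivative f).natDegree ≤ 2 := (natDegree_derivative_le f).trans (by omega)
  simp only [stepD, if_true]
  constructor
  · refine (natDegree_add_le _ _).trans (max_le ?_ ?_)
    · rcases Nat.eq_zero_or_pos d with hd | hd
      · have : derivative g = 0 := by
          apply derivative_of_natDegree_zero
          omega
        simp [this]
      · refine natDegree_mul_le.trans ?_
        rw [hf3, h2]
        have := natDegree_C_mul_le (2 : R) (derivative g)
        omega
    · refine natDegree_mul_le.trans ?_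
      omega
  · rw [coeff_add]
    have e1 : (2 * derivative g * f).coeff (d + 2) = (2 * d : ℕ) * g.coeff d := by
      rcases Nat.eq_zero_or_pos d with hd | hd
      · have : derivative g = 0 := by
          apply derivative_of_natDegree_zero
          omega
        simp [this, hd]
      · have hd' : d + 2 = (d - 1) + 3 := by omega
        have hA : (2 * derivative g).natDegree ≤ d - 1 := by
          rw [h2]; exact (natDegree_C_mul_le _ _).trans hd1
        rw [hd', coeff_mul_add_eq_of_natDegree_le hA (le_of_eq hf3), hf3c, mul_one, h2,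
          coeff_C_mul, coeff_derivative]
        have : d - 1 + 1 = d := by omega
        rw [this]
        have h3 : ((d - 1 : ℕ) : R) + 1 = d := by
          have : ((d - 1 + 1 : ℕ) : R) = d := by rw [this]
          push_cast at this
          exact this
        rw [h3]
        push_cast
        ring
    have e2 : (g * derivative f).coeff (d + 2) = 3 * g.coeff d := by
      rw [coeff_mul_add_eq_of_natDegree_le hg hdf, coeff_derivative, hf3c]
      push_cast
      ring
    rw [e1, e2]
    push_cast
    ring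

theorem xor_bodd_succ (ε : Bool) (i : ℕ) : (ε ^^ (i + 1).bodd) = !(ε ^^ i.bodd) := by
  rw [Nat.bodd_succ, Bool.xor_not]

/-- Degree and top coefficient of `iterD` for an element of pole order `ν ≥ 2`. -/
theorem iterD_spec (f : R[X]) (hf : f.Monic) (hf3 : f.natDegree = 3) (ε : Bool) (g : R[X])
    (d : ℕ) (hg : g.natDegree ≤ d) (ν : ℕ) (hν : ν = 2 * d + (if ε then 3 else 0))
    (hν2 : 2 ≤ ν) (i : ℕ) :
    ∃ D : ℕ, 2 * D + (if (ε ^^ i.bodd) then 3 else 0) = ν + i ∧
      (iterD f ε g i).natDegree ≤ D ∧
      (iterD f ε g i).coeff D = (∏ t ∈ range i, ((ν + t : ℕ) : R)) * g.coeff d := by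
  induction i with
  | zero => exact ⟨d, by simp [hν], hg, by simp⟩
  | succ i ih =>
    obtain ⟨D, hD, h1, h2⟩ := ih
    rw [iterD_succ, xor_bodd_succ]
    rcases hb : (ε ^^ i.bodd) with _ | _
    · rw [hb] at hD
      simp only [Bool.false_eq_true, if_false, add_zero] at hD
      obtain ⟨D', rfl⟩ : ∃ D', D = D' + 1 := ⟨D - 1, by omega⟩
      obtain ⟨k1, k2⟩ := stepD_false_natDegree f _ D' h1
      refine ⟨D', ?_, k1, ?_⟩
      · simp only [Bool.not_false, if_true]
        omega
      · rw [k2, h2, prod_range_succ]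
        have : 2 * (D' + 1) = ν + i := hD
        rw [this]
        ring
    · rw [hb] at hD
      simp only [if_true] at hD
      obtain ⟨k1, k2⟩ := stepD_true_natDegree f _ hf hf3 D h1
      refine ⟨D + 2, ?_, k1, ?_⟩
      · simp only [Bool.not_true, Bool.false_eq_true, if_false]
        omega
      · rw [k2, h2, prod_range_succ]
        have : 2 * D + 3 = ν + i := hD
        rw [this]
        ring

/-- The entry of the polynomial Wronskian matrix in row `i` (= `D^i`) for the column function
`x^k·y^τ`: the `y`'s have been pulled out of odd rows and odd columns (using `y² = f`). -/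
noncomputable def wronEntry (f : R[X]) (i : ℕ) (τ : Bool) (k : ℕ) : R[X] :=
  iterD f τ (X ^ k) i * (if (i.bodd && !τ) then f else 1)

/-- pole order of `x^k·y^τ`. -/
def poleOrdOf (τ : Bool) (k : ℕ) : ℕ := 2 * k + (if τ then 3 else 0)

/-- row degree -/
def rowDeg (i : ℕ) : ℕ := i / 2 + 2 * (i % 2)

theorem bodd_eq_mod (j : ℕ) : (if j.bodd then 1 else 0) = j % 2 := by
  rw [Nat.mod_two_of_bodd]
  cases j.bodd <;> rfl

theorem wronEntry_spec [Nontrivial R] (f : R[X]) (hf : f.Monic) (hf3 : f.natDegree = 3)
    (i : ℕ) (τ : Bool) (k : ℕ) :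
    (wronEntry f i τ k).natDegree ≤ rowDeg i + k ∧
      (wronEntry f i τ k).coeff (rowDeg i + k) =
        ∏ t ∈ range i, ((poleOrdOf τ k + t : ℕ) : R) := by
  have hX : (X ^ k : R[X]).natDegree ≤ k := natDegree_X_pow_le _
  have hXc : (X ^ k : R[X]).coeff k = 1 := by simp
  have hib : (if i.bodd then 1 else 0) = i % 2 := bodd_eq_mod i
  have hf3c : f.coeff 3 = 1 := by
    have := hf.coeff_natDegree
    rwa [hf3] at this
  by_cases h0 : τ = false ∧ k = 0
  · -- the constant function 1
    obtain ⟨rfl, rfl⟩ := h0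
    rcases Nat.eq_zero_or_pos i with hi0 | hipos
    · subst hi0
      simp [wronEntry, rowDeg]
    · obtain ⟨i', rfl⟩ : ∃ i', i = i' + 1 := ⟨i - 1, by omega⟩
      have h1 : iterD f false (1 : R[X]) 1 = 0 := by
        simp [iterD_succ, stepD]
      have hz : ∀ k, iterD f false (1 : R[X]) (k + 1) = 0 := by
        intro k
        induction k with
        | zero => exact h1
        | succ k ih => rw [iterD_succ, ih, stepD_zero]
      have : wronEntry f (i' + 1) false 0 = 0 := by
        simp [wronEntry, hz]
      rw [this]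
      refine ⟨by simp, ?_⟩
      rw [coeff_zero]
      symm
      apply Finset.prod_eq_zero (i := 0) (by simp)
      simp [poleOrdOf]
  · have hν2 : 2 ≤ poleOrdOf τ k := by
      unfold poleOrdOf
      rcases τ with _ | _
      · have : k ≠ 0 := fun h => h0 ⟨rfl, h⟩
        simp only [Bool.false_eq_true, if_false]
        omega
      · simp only [if_true]
        omega
    obtain ⟨D, hD, h1, h2⟩ := iterD_spec f hf hf3 τ (X ^ k) k hX (poleOrdOf τ k) rfl hν2 i
    rw [hXc, mul_one] at h2
    have hD' : 2 * D + 3 * (if (τ ^^ i.bodd) then 1 else 0) = poleOrdOf τ k + i := by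
      rw [← hD]
      cases (τ ^^ i.bodd) <;> rfl
    unfold wronEntry
    rcases hi : i.bodd with _ | _
    · -- even row
      rw [hi] at hib hD'
      simp only [Bool.false_and, Bool.false_eq_true, if_false, mul_one]
      have hDeq : D = rowDeg i + k := by
        unfold rowDeg
        unfold poleOrdOf at hD'
        simp only [Bool.xor_false] at hD'
        simp only [Bool.false_eq_true, if_false] at hib
        rcases τ with _ | _
        · simp only [Bool.false_eq_true, if_false] at hD'
          omega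
        · simp only [if_true] at hD'
          omega
      rw [← hDeq]
      exact ⟨h1, h2⟩
    · rw [hi] at hib hD'
      simp only [if_true] at hib
      rcases τ with _ | _
      · simp only [Bool.false_bne, if_true] at hD'
        simp only [Bool.true_and, Bool.not_false, if_true]
        have hDeq : D + 3 = rowDeg i + k := by
          unfold rowDeg
          unfold poleOrdOf at hD'
          simp only [Bool.false_eq_true, if_false] at hD'
          omega
        rw [← hDeq]
        constructor
        · refine natDegree_mul_le.trans ?_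
          rw [hf3]
          omega
        · rw [coeff_mul_add_eq_of_natDegree_le h1 (le_of_eq hf3), hf3c, mul_one, h2]
      · simp only [Bool.xor_self, Bool.false_eq_true, if_false] at hD'
        simp only [Bool.true_and, Bool.not_true, Bool.false_eq_true, if_false, mul_one]
        have hDeq : D = rowDeg i + k := by
          unfold rowDeg
          unfold poleOrdOf at hD'
          simp only [if_true] at hD'
          omega
        rw [← hDeq]
        exact ⟨h1, h2⟩

/-! ### The basis `1, x, y, x², xy, …` ordered by pole order `0, 2, 3, 4, 5, …` -/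

/-- Pole order of the `j`-th basis function: `0, 2, 3, 4, …`
(same as `Fermat.Agent.S13.Wron.poleOrd`). -/
def nu (j : ℕ) : ℕ := if j = 0 then 0 else j + 1

/-- exponent of `y` in the monomial of pole order `m`. -/
def tauOf (m : ℕ) : Bool := m.bodd

/-- exponent of `x` in the monomial of pole order `m`. -/
def kOf (m : ℕ) : ℕ := if m.bodd then (m - 3) / 2 else m / 2

theorem poleOrdOf_nu (j : ℕ) : poleOrdOf (tauOf (nu j)) (kOf (nu j)) = nu j := by
  unfold poleOrdOf tauOf kOf
  have hb := bodd_eq_mod (nu j)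
  have hn : nu j ≠ 1 := by
    unfold nu
    split_ifs <;> omega
  rcases h : (nu j).bodd with _ | _
  · rw [h] at hb
    simp only [Bool.false_eq_true, if_false] at hb ⊢
    omega
  · rw [h] at hb
    simp only [if_true] at hb ⊢
    omega

theorem nu_strictMono : StrictMono nu := by
  intro a b h
  unfold nu
  split_ifs <;> omega

/-- The polynomial Wronskian matrix. -/
noncomputable def wronMatrix (f : R[X]) (n : ℕ) : Matrix (Fin n) (Fin n) R[X] :=
  Matrix.of fun i j => wronEntry f i (tauOf (nu j)) (kOf (nu j))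

/-- The polynomial Wronskian `w_n(x) = det (D^i e_j)_{i,j<n}` of the basis
`e_j = 1, x, y, x², xy, …` of `L(n·O)` on `y² = f(x)`. -/
noncomputable def wronPoly (f : R[X]) (n : ℕ) : R[X] := (wronMatrix f n).det

/-- The degree of the polynomial Wronskian. -/
def wronDeg (n : ℕ) : ℕ := ∑ i : Fin n, rowDeg i + ∑ j : Fin n, kOf (nu j)

theorem wronDeg_odd (m : ℕ) : wronDeg (2 * m + 1) = 2 * m ^ 2 + 2 * m := by
  unfold wronDeg
  rw [Fin.sum_univ_eq_sum_range (fun i => rowDeg i) (2 * m + 1),
    Fin.sum_univ_eq_sum_range (fun j => kOf (nu j)) (2 * m + 1), ← Finset.sum_add_distrib]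
  induction m with
  | zero => simp [rowDeg, kOf, nu]
  | succ m ih =>
    have : 2 * (m + 1) + 1 = (2 * m + 1) + 1 + 1 := by ring
    rw [this, Finset.sum_range_succ, Finset.sum_range_succ, ih]
    have h1 : rowDeg (2 * m + 1) = m + 2 := by unfold rowDeg; omega
    have h2 : rowDeg (2 * m + 1 + 1) = m + 1 := by unfold rowDeg; omega
    have h3 : kOf (nu (2 * m + 1)) = m + 1 := by
      have e : nu (2 * m + 1) = 2 * (m + 1) := by unfold nu; split_ifs <;> omega
      have b : (2 * (m + 1)).bodd = false := by simp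
      unfold kOf
      rw [e, b]
      simp
    have h4 : kOf (nu (2 * m + 1 + 1)) = m := by
      have e : nu (2 * m + 1 + 1) = 2 * (m + 1) + 1 := by unfold nu; split_ifs <;> omega
      have b : (2 * (m + 1) + 1).bodd = true := by simp
      unfold kOf
      rw [e, b]
      simp only [if_true]
      omega
    rw [h1, h2, h3, h4]
    ring

theorem wronDeg_eq (n : ℕ) (hn : n % 2 = 1) : wronDeg n = (n ^ 2 - 1) / 2 := by
  obtain ⟨m, rfl⟩ : ∃ m, n = 2 * m + 1 := ⟨n / 2, by omega⟩
  rw [wronDeg_odd]
  have : (2 * m + 1) ^ 2 - 1 = 2 * (2 * m ^ 2 + 2 * m) := by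
    have : (2 * m + 1) ^ 2 = 2 * (2 * m ^ 2 + 2 * m) + 1 := by ring
    omega
  rw [this]
  omega

theorem wronPoly_natDegree_le [Nontrivial R] (f : R[X]) (hf : f.Monic) (hf3 : f.natDegree = 3)
    (n : ℕ) : (wronPoly f n).natDegree ≤ wronDeg n :=
  (det_natDegree_le_and_coeff (wronMatrix f n) (fun i => rowDeg i) (fun j => kOf (nu j))
    (fun i _ => (wronEntry_spec f hf hf3 i _ _).1)).1

theorem wronPoly_coeff [Nontrivial R] (f : R[X]) (hf : f.Monic) (hf3 : f.natDegree = 3)
    (n : ℕ) : (wronPoly f n).coeff (wronDeg n) =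
      (Matrix.of fun i j : Fin n => ∏ t ∈ range (i : ℕ), ((nu j + t : ℕ) : R)).det := by
  have := (det_natDegree_le_and_coeff (wronMatrix f n) (fun i => rowDeg i)
    (fun j => kOf (nu j)) (fun i j => (wronEntry_spec f hf hf3 i _ _).1)).2
  unfold wronPoly wronDeg
  rw [this]
  congr 1
  ext i j
  have := (wronEntry_spec f hf hf3 i (tauOf (nu j)) (kOf (nu j))).2
  rw [poleOrdOf_nu] at this
  exact this

theorem prod_range_eq_ascPochhammer_eval (ν i : ℕ) :
    ∏ t ∈ range i, ((ν + t : ℕ) : R) = (ascPochhammer R i).eval (ν : R) := by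
  induction i with
  | zero => simp
  | succ i ih =>
    rw [prod_range_succ, ih, ascPochhammer_succ_eval]
    push_cast
    ring

theorem wronPoly_coeff_eq_vandermonde [IsDomain R] (f : R[X]) (hf : f.Monic)
    (hf3 : f.natDegree = 3) (n : ℕ) :
    (wronPoly f n).coeff (wronDeg n) =
      ∏ i : Fin n, ∏ j ∈ Ioi i, (((nu j : ℕ) : R) - ((nu i : ℕ) : R)) := by
  rw [wronPoly_coeff f hf hf3, ← Matrix.det_vandermonde,
    Matrix.det_eval_matrixOfPolynomials_eq_det_vandermonde (fun j : Fin n => ((nu j : ℕ) : R))
      (fun i : Fin n => ascPochhammer R i) (fun i => ascPochhammer_natDegree R _)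
      (fun i => monic_ascPochhammer R _), ← Matrix.det_transpose]
  congr 1
  ext i j
  simp only [Matrix.transpose_apply, Matrix.of_apply]
  exact prod_range_eq_ascPochhammer_eval _ _

/-- In characteristic `0` the polynomial Wronskian has degree exactly `wronDeg n`, with leading
coefficient the Vandermonde determinant of the pole orders. -/
theorem wronPoly_natDegree [IsDomain R] [CharZero R] (f : R[X]) (hf : f.Monic)
    (hf3 : f.natDegree = 3) (n : ℕ) :
    (wronPoly f n).natDegree = wronDeg n ∧
      (wronPoly f n).leadingCoeff =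
        ∏ i : Fin n, ∏ j ∈ Ioi i, (((nu j : ℕ) : R) - ((nu i : ℕ) : R)) := by
  have hc := wronPoly_coeff_eq_vandermonde f hf hf3 n
  have hne : (wronPoly f n).coeff (wronDeg n) ≠ 0 := by
    rw [hc]
    refine Finset.prod_ne_zero_iff.2 (fun i _ => Finset.prod_ne_zero_iff.2 (fun j hj => ?_))
    rw [sub_ne_zero]
    intro h
    have h1 := nu_strictMono.injective (Nat.cast_injective h)
    have h2 : i < j := Finset.mem_Ioi.1 hj
    exact absurd (Fin.ext h1) (ne_of_gt h2)
  have hdeg : (wronPoly f n).natDegree = wronDeg n :=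
    le_antisymm (wronPoly_natDegree_le f hf hf3 n) (le_natDegree_of_ne_zero hne)
  refine ⟨hdeg, ?_⟩
  rw [leadingCoeff, hdeg, hc]

theorem vandermonde_nu_prime (p : ℕ) (hp : p.Prime) (hp2 : p ≠ 2) :
    ∃ u : ℤ, (∏ i : Fin p, ∏ j ∈ Ioi i, (((nu j : ℕ) : ℤ) - ((nu i : ℕ) : ℤ)))
      = (p : ℤ) * u ∧ ¬ (p : ℤ) ∣ u := by
  have hp3 : 3 ≤ p := by
    have := hp.two_le
    omega
  have hpZ : Prime (p : ℤ) := Nat.prime_iff_prime_int.1 hp
  rw [Finset.prod_sigma' (Finset.univ : Finset (Fin p)) (fun i => Ioi i)
    (fun i j => (((nu j : ℕ) : ℤ) - ((nu i : ℕ) : ℤ)))]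
  set a0 : (Σ _ : Fin p, Fin p) := ⟨⟨0, by omega⟩, ⟨p - 1, by omega⟩⟩ with ha0
  have hmem : a0 ∈ (Finset.univ : Finset (Fin p)).sigma (fun i => Ioi i) := by
    rw [Finset.mem_sigma]
    refine ⟨Finset.mem_univ _, Finset.mem_Ioi.2 ?_⟩
    rw [ha0]
    rw [Fin.lt_def]
    simp only
    omega
  rw [← Finset.mul_prod_erase _ _ hmem]
  refine ⟨∏ x ∈ ((Finset.univ : Finset (Fin p)).sigma (fun i => Ioi i)).erase a0,
    (((nu x.2 : ℕ) : ℤ) - ((nu x.1 : ℕ) : ℤ)), ?_, ?_⟩
  · congr 1
    rw [ha0]
    simp only [nu]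
    have h1 : p - 1 ≠ 0 := by omega
    rw [if_neg h1]
    simp only [if_true]
    have : p - 1 + 1 = p := by omega
    rw [this]
    simp
  · rw [Prime.dvd_finsetProd_iff hpZ]
    rintro ⟨⟨i, j⟩, hx, hdvd⟩
    rw [Finset.mem_erase, Finset.mem_sigma] at hx
    obtain ⟨hne, -, hij⟩ := hx
    have hij'' : i < j := Finset.mem_Ioi.1 hij
    have hij' : (i : ℕ) < (j : ℕ) := hij''
    have hi := i.2
    have hj := j.2
    obtain ⟨k, hk⟩ := hdvd
    simp only at hk
    have hbi : nu i ≤ p := by unfold nu; split_ifs <;> omega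
    have hbj : nu j ≤ p := by unfold nu; split_ifs <;> omega
    have hlt : nu i < nu j := nu_strictMono hij'
    have hpos : (0 : ℤ) < p := by exact_mod_cast hp.pos
    have hd1 : ((nu j : ℕ) : ℤ) - ((nu i : ℕ) : ℤ) ≤ p := by omega
    have hd3 : 0 < ((nu j : ℕ) : ℤ) - ((nu i : ℕ) : ℤ) := by omega
    have hk1 : k ≤ 1 := by
      by_contra hc
      push Not at hc
      nlinarith
    have hk2 : 1 ≤ k := by
      by_contra hc
      push Not at hc
      have : k ≤ 0 := by omega
      nlinarith
    have hk4 : k = 1 := by omega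
    subst hk4
    apply hne
    rw [ha0]
    have hi0 : nu i = 0 := by omega
    have hjp : nu j = p := by omega
    have h1 : (i : ℕ) = 0 := by
      unfold nu at hi0
      split_ifs at hi0
      all_goals omega
    have h2 : (j : ℕ) = p - 1 := by
      unfold nu at hjp
      split_ifs at hjp
      all_goals omega
    have e1 : i = ⟨0, by omega⟩ := Fin.ext h1
    have e2 : j = ⟨p - 1, by omega⟩ := Fin.ext h2
    exact Sigma.ext e1 (heq_of_eq e2)

/-- The integral polynomial Wronskian for an odd prime `p`: degree `(p² - 1)/2`, leading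
coefficient `p·u` with `p ∤ u`. -/
theorem wronPoly_int_prime (f : ℤ[X]) (hf : f.Monic) (hf3 : f.natDegree = 3) (p : ℕ)
    (hp : p.Prime) (hp2 : p ≠ 2) :
    (wronPoly f p).natDegree = (p ^ 2 - 1) / 2 ∧
      ∃ u : ℤ, (wronPoly f p).leadingCoeff = (p : ℤ) * u ∧ ¬ (p : ℤ) ∣ u := by
  have hodd : p % 2 = 1 := hp.eq_two_or_odd.resolve_left hp2
  obtain ⟨h1, h2⟩ := wronPoly_natDegree f hf hf3 p
  obtain ⟨u, hu, hpu⟩ := vandermonde_nu_prime p hp hp2
  refine ⟨by rw [h1, wronDeg_eq p hodd], u, ?_, hpu⟩
  rw [h2]
  exact hu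

section map

variable {S : Type*} [CommRing S] (φ : R →+* S)

theorem stepD_map (f : R[X]) (ε : Bool) (g : R[X]) :
    (stepD f ε g).map φ = stepD (f.map φ) ε (g.map φ) := by
  cases ε <;> simp [stepD, derivative_map]

theorem iterD_map (f : R[X]) (ε : Bool) (g : R[X]) (i : ℕ) :
    (iterD f ε g i).map φ = iterD (f.map φ) ε (g.map φ) i := by
  induction i with
  | zero => rfl
  | succ i ih => rw [iterD_succ, iterD_succ, stepD_map, ih]

theorem wronEntry_map (f : R[X]) (i : ℕ) (τ : Bool) (k : ℕ) :
    (wronEntry f i τ k).map φ = wronEntry (f.map φ) i τ k := by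
  unfold wronEntry
  rw [Polynomial.map_mul, iterD_map, Polynomial.map_pow, map_X]
  congr 1
  split_ifs <;> simp

theorem wronPoly_map (f : R[X]) (n : ℕ) :
    (wronPoly f n).map φ = wronPoly (f.map φ) n := by
  unfold wronPoly
  have := RingHom.map_det (Polynomial.mapRingHom φ) (wronMatrix f n)
  rw [Polynomial.coe_mapRingHom] at this
  rw [this]
  congr 1
  ext i j
  simp only [RingHom.mapMatrix_apply, Matrix.map_apply, wronMatrix, Matrix.of_apply,
    Polynomial.coe_mapRingHom]
  exact congrArg (fun q => Polynomial.coeff q _) (wronEntry_map φ f i _ _)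

end map

end defs

/-! ### Bridge: the Wronskian of a derivation on a ring with `y² = f(x)` -/

section bridge

variable {A : Type*} [CommRing A] {S : Type*} [CommRing S] [Algebra A S]
  (D : Derivation A S S) (f : A[X]) (x y : S)

/-- `y^τ` for `τ : Bool`. -/
def ypow (y : S) (τ : Bool) : S := if τ then y else 1

theorem D_aeval (hx : D x = 2 * y) (g : A[X]) :
    D (aeval x g) = aeval x (stepD f false g) * y := by
  rw [Derivation.map_aeval, hx, smul_eq_mul]
  simp only [stepD, Bool.false_eq_true, if_false, map_mul]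
  have : (aeval x) (2 : A[X]) = 2 := map_ofNat (aeval x) 2
  rw [this]
  ring

theorem D_aeval_mul_y (hy2 : y * y = aeval x f) (hx : D x = 2 * y)
    (hy : D y = aeval x (derivative f)) (g : A[X]) :
    D (aeval x g * y) = aeval x (stepD f true g) := by
  rw [Derivation.leibniz, Derivation.map_aeval, hx, hy]
  simp only [stepD, if_true, map_mul, map_add, smul_eq_mul]
  have : (aeval x) (2 : A[X]) = 2 := map_ofNat (aeval x) 2
  rw [this, ← hy2]
  ring

theorem D_iterate (hy2 : y * y = aeval x f) (hx : D x = 2 * y)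
    (hy : D y = aeval x (derivative f)) (ε : Bool) (g : A[X]) (i : ℕ) :
    (⇑D)^[i] (aeval x g * ypow y ε) = aeval x (iterD f ε g i) * ypow y (ε ^^ i.bodd) := by
  induction i with
  | zero => simp
  | succ i ih =>
    rw [Function.iterate_succ_apply', ih, iterD_succ, xor_bodd_succ]
    rcases (ε ^^ i.bodd) with _ | _
    · simp only [ypow, Bool.false_eq_true, if_false, mul_one, Bool.not_false, if_true]
      exact D_aeval D f x y hx _
    · simp only [ypow, if_true, Bool.not_true, Bool.false_eq_true, if_false, mul_one]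
      exact D_aeval_mul_y D f x y hy2 hx hy _

theorem prod_ypow_bodd (m : ℕ) :
    ∏ i : Fin (2 * m + 1), ypow y (i : ℕ).bodd = y ^ m := by
  rw [Fin.prod_univ_eq_prod_range (fun i => ypow y i.bodd) (2 * m + 1)]
  induction m with
  | zero => simp [ypow]
  | succ m ih =>
    have : 2 * (m + 1) + 1 = (2 * m + 1) + 1 + 1 := by ring
    rw [this, Finset.prod_range_succ, Finset.prod_range_succ, ih]
    have b1 : (2 * m + 1).bodd = true := by simp
    have b2 : (2 * m + 1 + 1).bodd = false := by
      rw [Nat.bodd_succ, b1]; rfl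
    rw [b1, b2]
    simp only [ypow, if_true, Bool.false_eq_true, if_false, mul_one]
    rw [pow_succ]

theorem prod_ypow_tau (m : ℕ) :
    ∏ j : Fin (2 * m + 1), ypow y (tauOf (nu (j : ℕ))) = y ^ m := by
  rw [Fin.prod_univ_eq_prod_range (fun j => ypow y (tauOf (nu j))) (2 * m + 1)]
  induction m with
  | zero => simp [ypow, tauOf, nu]
  | succ m ih =>
    have : 2 * (m + 1) + 1 = (2 * m + 1) + 1 + 1 := by ring
    rw [this, Finset.prod_range_succ, Finset.prod_range_succ, ih]
    have e1 : nu (2 * m + 1) = 2 * (m + 1) := by unfold nu; split_ifs <;> omega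
    have e2 : nu (2 * m + 1 + 1) = 2 * (m + 1) + 1 := by unfold nu; split_ifs <;> omega
    have b1 : tauOf (nu (2 * m + 1)) = false := by
      unfold tauOf; rw [e1]; simp
    have b2 : tauOf (nu (2 * m + 1 + 1)) = true := by
      unfold tauOf; rw [e2]; simp
    rw [b1, b2]
    simp only [ypow, if_true, Bool.false_eq_true, if_false, mul_one]
    rw [pow_succ]

/-- **Bridge.** On a domain `S` with `y² = f(x)`, `y ≠ 0`, and a derivation `D` with `D x = 2y`,
`D y = f'(x)`, the Wronskian determinant of the monomials `x^k y^τ` of pole orders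
`0, 2, 3, …, n` (`n` odd) is the polynomial `wronPoly f n` evaluated at `x`. -/
theorem det_iterate_eq_aeval_wronPoly [IsDomain S] (hy0 : y ≠ 0) (hy2 : y * y = aeval x f)
    (hx : D x = 2 * y) (hy : D y = aeval x (derivative f)) (n : ℕ) (hn : n % 2 = 1) :
    (Matrix.of fun i j : Fin n =>
        (⇑D)^[(i : ℕ)] (x ^ kOf (nu (j : ℕ)) * ypow y (tauOf (nu (j : ℕ))))).det =
      aeval x (wronPoly f n) := by
  obtain ⟨m, rfl⟩ : ∃ m, n = 2 * m + 1 := ⟨n / 2, by omega⟩
  set M : Matrix (Fin (2 * m + 1)) (Fin (2 * m + 1)) S := Matrix.of fun i j =>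
    (⇑D)^[(i : ℕ)] (x ^ kOf (nu (j : ℕ)) * ypow y (tauOf (nu (j : ℕ)))) with hM
  set a : Fin (2 * m + 1) → S := fun i => ypow y (i : ℕ).bodd with ha
  set b : Fin (2 * m + 1) → S := fun j => ypow y (tauOf (nu (j : ℕ))) with hb
  have hentry : ∀ i j, a i * (b j * M i j) =
      b j ^ 2 * ((aeval x).toRingHom.mapMatrix (wronMatrix f (2 * m + 1))) i j := by
    intro i j
    have hD := D_iterate D f x y hy2 hx hy (tauOf (nu (j : ℕ))) (X ^ kOf (nu (j : ℕ))) (i : ℕ)
    rw [map_pow, aeval_X] at hD
    simp only [hM, ha, hb, Matrix.of_apply, hD, RingHom.mapMatrix_apply, Matrix.map_apply,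
      wronMatrix, wronEntry, AlgHom.toRingHom_eq_coe, RingHom.coe_coe, map_mul]
    rcases (i : ℕ).bodd with _ | _ <;> rcases tauOf (nu (j : ℕ)) with _ | _
    · simp [ypow]
    · simp only [ypow, Bool.false_eq_true, if_false, if_true, Bool.xor_false, Bool.false_and,
        map_one, mul_one, one_mul]
      ring
    · simp only [ypow, Bool.false_eq_true, if_false, if_true, Bool.false_bne, Bool.true_and,
        Bool.not_false, one_mul, one_pow]
      rw [← hy2]
      ring
    · simp only [ypow, if_true, Bool.xor_self, Bool.false_eq_true, if_false, Bool.true_and,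
        Bool.not_true, map_one, mul_one]
      ring
  have h1 : (Matrix.of fun i j => a i * (b j * M i j)).det
      = (∏ i, a i) * ((∏ j, b j) * M.det) := by
    have e1 := Matrix.det_mul_column a (Matrix.of fun i j => b j * M i j)
    rw [Matrix.det_mul_row b M] at e1
    exact e1
  have h2 : (Matrix.of fun i j => a i * (b j * M i j)).det
      = (∏ j, b j ^ 2) * aeval x (wronPoly f (2 * m + 1)) := by
    have : (Matrix.of fun i j => a i * (b j * M i j)) =
        Matrix.of fun i j =>
          b j ^ 2 * ((aeval x).toRingHom.mapMatrix (wronMatrix f (2 * m + 1))) i j := by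
      ext i j
      exact hentry i j
    rw [this, Matrix.det_mul_row, ← RingHom.map_det]
    rfl
  have ha' : ∏ i, a i = y ^ m := prod_ypow_bodd y m
  have hb' : ∏ j, b j = y ^ m := prod_ypow_tau y m
  rw [h1, Finset.prod_pow, ha', hb'] at h2
  have hne : y ^ m * y ^ m ≠ 0 := mul_ne_zero (pow_ne_zero _ hy0) (pow_ne_zero _ hy0)
  apply mul_left_cancel₀ hne
  rw [mul_assoc, h2]
  ring

end bridge

end Fermat.Agent.S13.H37
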