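/-
S13 / item 57 (Wronskian route): shared definitions, helper67.

`R = W.CoordinateRing`.  The functions with a pole of order `≤ n` at infinity and no other pole
have the monomial basis `1, X, Y, X², XY, X³, …` with pole orders `0, 2, 3, 4, 5, 6, …`.
The Wronskian is `det (D^i e_j)_{i,j<n}` for the invariant derivation `D`.
-/
import Mathlib

set_option autoImplicit false

namespace Fermat.Agent.S13.Wron

open Polynomial WeierstrassCurve WeierstrassCurve.Affine

variable {K : Type*} [CommRing K] (W : WeierstrassCurve.Affine K)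

/-- Pole order of the `j`-th basis function: `0, 2, 3, 4, …`. -/
def poleOrd (j : ℕ) : ℕ := if j = 0 then 0 else j + 1

/-- The monomial with a pole of order `m` at infinity: `X^(m/2)` for `m` even,
`X^((m-3)/2) * Y` for `m` odd. -/
noncomputable def monoOfOrd (m : ℕ) : W.CoordinateRing :=
  if Even m then CoordinateRing.mk W (C (X ^ (m / 2)))
  else CoordinateRing.mk W (C (X ^ ((m - 3) / 2)) * (X : Polynomial (Polynomial K)))

/-- The `j`-th basis function `e_j` (pole order `poleOrd j`). -/
noncomputable def basisFn (j : ℕ) : W.CoordinateRing := monoOfOrd W (poleOrd j)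

/-- The Wronskian matrix `(D^i e_j)_{i,j<n}`. -/
noncomputable def wronMatrix (D : W.CoordinateRing → W.CoordinateRing) (n : ℕ) :
    Matrix (Fin n) (Fin n) W.CoordinateRing :=
  Matrix.of fun i j => D^[(i : ℕ)] (basisFn W (j : ℕ))

/-- The Wronskian `det (D^i e_j)_{i,j<n}`. -/
noncomputable def wron (D : W.CoordinateRing → W.CoordinateRing) (n : ℕ) : W.CoordinateRing :=
  (wronMatrix W D n).det

/-- The Vandermonde number `∏_{i<j<n} (poleOrd j - poleOrd i)`. -/
def vdmNat (n : ℕ) : ℕ :=
  ∏ i : Fin n, ∏ j ∈ Finset.Ioi i, (poleOrd (j : ℕ) - poleOrd (i : ℕ))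

end Fermat.Agent.S13.Wron
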