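/-
S13 / item 57 (Wronskian route), step (D), helper37: bridge to helper67's `Wron.wron`.

For `W : Affine F` with `a₁ = a₃ = 0` and ANY derivation `D` of `W.CoordinateRing` with
`D (mk (C X)) = mk W.polynomialY` and `D (mk Y) = - mk W.polynomialX` (e.g. helper12's
`Fermat.Agent.S13.H12.Deriv.D W`), and `n` odd:

  `Wron.wron W D n = mk W (C (wronPoly (shortCubic W) n))`

where `wronPoly` is the explicit polynomial Wronskian of `H37_WronPoly.lean` (degree `(n²-1)/2`,
leading coefficient the Vandermonde of the pole orders; over `ℤ`, `n = p`: `p·u`, `p ∤ u`).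
-/
import Fermat.Agent.S13.WronskianDefs
import Fermat.Agent.S13.H37_WronPoly

set_option autoImplicit false

namespace Fermat.Agent.S13.H37

open Polynomial WeierstrassCurve WeierstrassCurve.Affine
open scoped Polynomial.Bivariate

section cubic

variable {R : Type*} [CommRing R]

/-- The cubic `f = X³ + a₂X² + a₄X + a₆` (so that `W : y² = f(x)` when `a₁ = a₃ = 0`). -/
noncomputable def shortCubic (W : WeierstrassCurve R) : R[X] :=
  X ^ 3 + C W.a₂ * X ^ 2 + C W.a₄ * X + C W.a₆

theorem shortCubic_eq_toPoly (W : WeierstrassCurve R) :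
    shortCubic W = (Cubic.toPoly ⟨1, W.a₂, W.a₄, W.a₆⟩ : R[X]) := by
  simp [shortCubic, Cubic.toPoly]

theorem shortCubic_monic (W : WeierstrassCurve R) : (shortCubic W).Monic := by
  rw [shortCubic_eq_toPoly]
  exact Cubic.monic_of_a_eq_one rfl

theorem shortCubic_natDegree [Nontrivial R] (W : WeierstrassCurve R) :
    (shortCubic W).natDegree = 3 := by
  rw [shortCubic_eq_toPoly]
  exact Cubic.natDegree_of_a_ne_zero (by simp)

theorem shortCubic_map {S : Type*} [CommRing S] (φ : R →+* S) (W : WeierstrassCurve R) :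
    (shortCubic W).map φ = shortCubic (W.map φ) := by
  simp [shortCubic]

theorem derivative_shortCubic (W : WeierstrassCurve R) :
    derivative (shortCubic W) = C 3 * X ^ 2 + C (2 * W.a₂) * X + C W.a₄ := by
  simp only [shortCubic, derivative_add, derivative_mul, derivative_C, derivative_X_pow,
    derivative_X, zero_mul, zero_add, mul_one, map_mul]
  have e3 : (C ((3 : ℕ) : R) : R[X]) = C 3 := by norm_num
  have e2 : (C ((2 : ℕ) : R) : R[X]) = C 2 := by norm_num
  have e31 : 3 - 1 = 2 := rfl
  have e21 : 2 - 1 = 1 := rfl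
  rw [e3, e2, e31, e21, pow_one, add_zero]
  ring

end cubic

variable {F : Type*} [Field F] (W : Affine F)

theorem aeval_mk_C_X (g : F[X]) :
    aeval (CoordinateRing.mk W (C X)) g = CoordinateRing.mk W (C g) := by
  induction g using Polynomial.induction_on' with
  | add p q hp hq => rw [map_add, hp, hq, map_add, map_add]
  | monomial n a =>
    rw [aeval_monomial, ← C_mul_X_pow_eq_monomial, map_mul, map_mul, map_pow, map_pow]
    rfl

theorem mk_Y_ne_zero : CoordinateRing.mk W Y ≠ 0 := by
  intro h
  have h0 : (0 : F[X]) • (1 : W.CoordinateRing) + (1 : F[X]) • CoordinateRing.mk W Y = 0 := by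
    rw [zero_smul, one_smul, zero_add, h]
  exact one_ne_zero (CoordinateRing.smul_basis_eq_zero h0).2

theorem mk_Y_mul_self (h1 : W.a₁ = 0) (h3 : W.a₃ = 0) :
    CoordinateRing.mk W Y * CoordinateRing.mk W Y
      = aeval (CoordinateRing.mk W (C X)) (shortCubic W) := by
  rw [aeval_mk_C_X]
  have h : CoordinateRing.mk W W.polynomial = 0 := AdjoinRoot.mk_self
  simp only [Affine.polynomial, h1, h3] at h
  simp only [map_zero, zero_mul, add_zero, map_sub, map_pow] at h
  rw [sub_eq_zero] at h
  rw [← pow_two, h]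
  rfl

theorem mk_polynomialY (h1 : W.a₁ = 0) (h3 : W.a₃ = 0) :
    CoordinateRing.mk W W.polynomialY = 2 * CoordinateRing.mk W Y := by
  simp only [Affine.polynomialY, h1, h3]
  simp only [map_zero, zero_mul, add_zero, map_mul]
  congr 1

theorem neg_mk_polynomialX (h1 : W.a₁ = 0) :
    - CoordinateRing.mk W W.polynomialX
      = aeval (CoordinateRing.mk W (C X)) (derivative (shortCubic W)) := by
  rw [aeval_mk_C_X, derivative_shortCubic]
  simp only [Affine.polynomialX, h1]
  simp only [map_zero, zero_mul, zero_sub, map_neg, neg_neg]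

theorem monoOfOrd_eq (m : ℕ) :
    Wron.monoOfOrd W m
      = CoordinateRing.mk W (C X) ^ kOf m * ypow (CoordinateRing.mk W Y) (tauOf m) := by
  unfold Wron.monoOfOrd kOf tauOf ypow
  rcases hb : m.bodd with _ | _
  · have he : Even m := by
      rw [Nat.even_iff, Nat.mod_two_of_bodd, hb]
      rfl
    rw [if_pos he]
    simp only [Bool.false_eq_true, if_false, mul_one, map_pow]
  · have he : ¬ Even m := by
      rw [Nat.even_iff, Nat.mod_two_of_bodd, hb]
      decide
    rw [if_neg he]
    simp only [if_true, map_mul, map_pow]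

/-- **(D), bridge.** The Wronskian `Wron.wron W D n` (`n` odd) of the invariant derivation on
`y² = f(x)` is the class of the explicit polynomial `wronPoly (shortCubic W) n ∈ F[X]`. -/
theorem wron_eq_mk_wronPoly (h1 : W.a₁ = 0) (h3 : W.a₃ = 0)
    (D : Derivation F W.CoordinateRing W.CoordinateRing)
    (hDx : D (CoordinateRing.mk W (C X)) = CoordinateRing.mk W W.polynomialY)
    (hDy : D (CoordinateRing.mk W Y) = - CoordinateRing.mk W W.polynomialX)
    (n : ℕ) (hn : n % 2 = 1) :
    Wron.wron W (⇑D) n = CoordinateRing.mk W (C (wronPoly (shortCubic W) n)) := by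
  have key := det_iterate_eq_aeval_wronPoly D (shortCubic W) (CoordinateRing.mk W (C X))
    (CoordinateRing.mk W Y) (mk_Y_ne_zero W) (mk_Y_mul_self W h1 h3)
    (by rw [hDx, mk_polynomialY W h1 h3]) (by rw [hDy, neg_mk_polynomialX W h1]) n hn
  rw [aeval_mk_C_X] at key
  rw [← key]
  unfold Wron.wron Wron.wronMatrix Wron.basisFn
  congr 1
  ext i j
  simp only [Matrix.of_apply]
  rw [monoOfOrd_eq]
  rfl

/-- Evaluation form: for any ring homomorphism `ev` out of the coordinate ring (e.g. evaluation
at a point `(x₀, y₀)`), `ev (wron) = (wronPoly f n).eval₂ (ev ∘ mk ∘ C ∘ C) (ev x)`. -/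
theorem map_wron_eq (h1 : W.a₁ = 0) (h3 : W.a₃ = 0)
    (D : Derivation F W.CoordinateRing W.CoordinateRing)
    (hDx : D (CoordinateRing.mk W (C X)) = CoordinateRing.mk W W.polynomialY)
    (hDy : D (CoordinateRing.mk W Y) = - CoordinateRing.mk W W.polynomialX)
    (n : ℕ) (hn : n % 2 = 1) (ev : W.CoordinateRing →ₐ[F] F) :
    ev (Wron.wron W (⇑D) n)
      = (wronPoly (shortCubic W) n).eval (ev (CoordinateRing.mk W (C X))) := by
  rw [wron_eq_mk_wronPoly W h1 h3 D hDx hDy n hn, ← aeval_mk_C_X, ← aeval_algHom_apply,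
    ← coe_aeval_eq_eval]

end Fermat.Agent.S13.H37
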