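import Mathlib

/-!
# S13, W-route, step (A): torsion points and principal powers of the maximal ideal

For a nonsingular point `P = (x, y)` of a Weierstrass curve `W` over a field `F`, with maximal
ideal `m_P = XYIdeal W x (C y)` of the coordinate ring `R = F[W]`, and `n ≥ 1` such that
`dim_F R / m_P ^ n = n`:

`n • P = 0 ↔ ∃ f ≠ 0, f ∈ m_P ^ n ∧ natDegree (Norm f) ≤ n`.
-/

set_option autoImplicit false

namespace Fermat.Agent.S13.H49

open WeierstrassCurve WeierstrassCurve.Affine Polynomial

variable {F : Type*} [Field F] (W : Affine F)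

/-- The quotient of the coordinate ring by a nonzero principal ideal is finite-dimensional. -/
theorem finite_quotient_span {f : W.CoordinateRing} (hf : f ≠ 0) :
    Module.Finite F (W.CoordinateRing ⧸ Ideal.span ({f} : Set W.CoordinateRing)) := by
  have hI : Ideal.span ({f} : Set W.CoordinateRing) ≠ ⊥ := Ideal.span_singleton_eq_bot.not.2 hf
  let b := CoordinateRing.basis W
  let e := (Ideal.quotientEquivPiSpan (Ideal.span ({f} : Set W.CoordinateRing)) b hI)
  have : ∀ i, Module.Finite F (F[X] ⧸ Ideal.span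
      ({(Ideal.span ({f} : Set W.CoordinateRing)).smithCoeffs b hI i} : Set F[X])) :=
    fun i => inferInstance
  exact Module.Finite.equiv (e.restrictScalars F).symm

variable [DecidableEq F]

/-- The class of `m_P ^ n` is `n • toClass P`. -/
theorem mk_pow_eq {x y : F} (h : W.Nonsingular x y) (n : ℕ) :
    Additive.toMul (Point.toClass ((n : ℤ) • Point.some x y h)) =
      ClassGroup.mk W.FunctionField ((CoordinateRing.XYIdeal' (W := W) h) ^ n) := by
  rw [map_zsmul, natCast_zsmul, Point.toClass_some, map_pow]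
  rfl

omit [DecidableEq F] in
theorem coe_XYIdeal'_pow {x y : F} (h : W.Nonsingular x y) (n : ℕ) :
    (((CoordinateRing.XYIdeal' (W := W) h) ^ n :
        (FractionalIdeal (nonZeroDivisors W.CoordinateRing) W.FunctionField)ˣ) :
      FractionalIdeal (nonZeroDivisors W.CoordinateRing) W.FunctionField) =
      ((CoordinateRing.XYIdeal W x (C y) ^ n : Ideal W.CoordinateRing) :
        FractionalIdeal (nonZeroDivisors W.CoordinateRing) W.FunctionField) := by
  rw [Units.val_pow_eq_pow_val, CoordinateRing.XYIdeal'_eq, FractionalIdeal.coeIdeal_pow]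

/-- `n • P = 0` iff `m_P ^ n` is principal. -/
theorem zsmul_eq_zero_iff_principal {x y : F} (h : W.Nonsingular x y) (n : ℕ) :
    (n : ℤ) • Point.some x y h = 0 ↔
      ∃ f : W.CoordinateRing, f ≠ 0 ∧
        CoordinateRing.XYIdeal W x (C y) ^ n = Ideal.span {f} := by
  rw [← Point.toClass_eq_zero, ← ClassGroup.mk_eq_one_of_coe_ideal (coe_XYIdeal'_pow W h n),
    ← mk_pow_eq W h n]
  rfl

/-- **Step (A).** -/
theorem zsmul_eq_zero_iff {x y : F} (h : W.Nonsingular x y) (n : ℕ) (_hn : 0 < n)
    (hdim : Module.finrank F (W.CoordinateRing ⧸ CoordinateRing.XYIdeal W x (C y) ^ n) = n) :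
    (n : ℤ) • Point.some x y h = 0 ↔
      ∃ f : W.CoordinateRing, f ≠ 0 ∧ f ∈ CoordinateRing.XYIdeal W x (C y) ^ n ∧
        (Algebra.norm F[X] f).natDegree ≤ n := by
  rw [zsmul_eq_zero_iff_principal]
  constructor
  · rintro ⟨f, hf, hI⟩
    refine ⟨f, hf, ?_, ?_⟩
    · rw [hI]; exact Ideal.mem_span_singleton_self f
    · rw [← finrank_quotient_span_eq_natDegree_norm (CoordinateRing.basis W) hf, ← hI, hdim]
  · rintro ⟨f, hf, hmem, hdeg⟩
    refine ⟨f, hf, ?_⟩
    have hle : Ideal.span ({f} : Set W.CoordinateRing) ≤ CoordinateRing.XYIdeal W x (C y) ^ n :=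
      (Ideal.span_singleton_le_iff_mem _).mpr hmem
    have hfin : Module.Finite F (W.CoordinateRing ⧸ Ideal.span ({f} : Set W.CoordinateRing)) :=
      finite_quotient_span W hf
    let φ : (W.CoordinateRing ⧸ Ideal.span ({f} : Set W.CoordinateRing)) →ₗ[F]
        (W.CoordinateRing ⧸ CoordinateRing.XYIdeal W x (C y) ^ n) :=
      (Ideal.Quotient.factorₐ F hle).toLinearMap
    have hφsurj : Function.Surjective φ := Ideal.Quotient.factor_surjective hle
    have hfin' : Module.Finite F (W.CoordinateRing ⧸ CoordinateRing.XYIdeal W x (C y) ^ n) :=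
      Module.Finite.of_surjective φ hφsurj
    have h1 : Module.finrank F (W.CoordinateRing ⧸ CoordinateRing.XYIdeal W x (C y) ^ n) ≤
        Module.finrank F (W.CoordinateRing ⧸ Ideal.span ({f} : Set W.CoordinateRing)) :=
      LinearMap.finrank_le_finrank_of_surjective hφsurj
    have h2 : Module.finrank F (W.CoordinateRing ⧸ Ideal.span ({f} : Set W.CoordinateRing)) ≤ n := by
      rw [finrank_quotient_span_eq_natDegree_norm (CoordinateRing.basis W) hf]
      exact hdeg
    have heq : Module.finrank F (W.CoordinateRing ⧸ Ideal.span ({f} : Set W.CoordinateRing)) =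
        Module.finrank F (W.CoordinateRing ⧸ CoordinateRing.XYIdeal W x (C y) ^ n) := by
      rw [hdim] at h1 ⊢
      exact le_antisymm h2 h1
    have hφinj : Function.Injective φ :=
      (LinearMap.injective_iff_surjective_of_finrank_eq_finrank heq).mpr hφsurj
    refine le_antisymm ?_ hle
    intro a ha
    have h3 : φ (Ideal.Quotient.mk _ a) = 0 := by
      show Ideal.Quotient.factor hle (Ideal.Quotient.mk _ a) = 0
      rw [Ideal.Quotient.factor_mk]
      exact Ideal.Quotient.eq_zero_iff_mem.mpr ha
    have h4 : (Ideal.Quotient.mk (Ideal.span ({f} : Set W.CoordinateRing)) a) = 0 :=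
      hφinj (h3.trans (map_zero φ).symm)
    exact Ideal.Quotient.eq_zero_iff_mem.mp h4

end Fermat.Agent.S13.H49
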