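/-
S13 / item 57 (Wronskian route), step (C): abstract Wronskian criterion, helper67.

`R` a commutative `K`-algebra, `ev : R →ₐ[K] K` a `K`-point, `L : R →ₗ[K] R` (e.g. a derivation),
`e : Fin n → R` linearly independent.  Then there is a nonzero `f` in the span of the `e j` with
`ev (L^[i] f) = 0` for all `i < n` iff `ev (det (L^[i] (e j))) = 0`.
-/
import Mathlib

set_option autoImplicit false

namespace Fermat.Agent.S13.H67

open Matrix

variable {K R : Type*} [Field K] [CommRing R] [Algebra K R]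

theorem iterate_sum_smul (L : R →ₗ[K] R) {n : ℕ} (e : Fin n → R) (c : Fin n → K) (i : ℕ) :
    (⇑L)^[i] (∑ j, c j • e j) = ∑ j, c j • (⇑L)^[i] (e j) := by
  rw [← Module.End.pow_apply, map_sum]
  refine Finset.sum_congr rfl fun j _ => ?_
  rw [map_smul, Module.End.pow_apply]

theorem ev_iterate_sum_smul (ev : R →ₐ[K] K) (L : R →ₗ[K] R) {n : ℕ} (e : Fin n → R)
    (c : Fin n → K) (i : Fin n) :
    ev ((⇑L)^[(i : ℕ)] (∑ j, c j • e j)) =
      ((ev : R →+* K).mapMatrix (Matrix.of fun (i j : Fin n) => (⇑L)^[(i : ℕ)] (e j)) *ᵥ c) i := by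
  rw [iterate_sum_smul, map_sum]
  simp only [Matrix.mulVec, dotProduct, RingHom.mapMatrix_apply, Matrix.map_apply, Matrix.of_apply,
    RingHom.coe_coe]
  refine Finset.sum_congr rfl fun j _ => ?_
  rw [map_smul, smul_eq_mul, mul_comm]

/-- (C) The abstract Wronskian criterion. -/
theorem wronskian_criterion (ev : R →ₐ[K] K) (L : R →ₗ[K] R) {n : ℕ} (e : Fin n → R)
    (he : LinearIndependent K e) :
    (∃ f ∈ Submodule.span K (Set.range e), f ≠ 0 ∧ ∀ i : ℕ, i < n → ev ((⇑L)^[i] f) = 0) ↔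
      ev (Matrix.det (Matrix.of fun (i j : Fin n) => (⇑L)^[(i : ℕ)] (e j))) = 0 := by
  have hdet : ev (Matrix.det (Matrix.of fun (i j : Fin n) => (⇑L)^[(i : ℕ)] (e j))) =
      ((ev : R →+* K).mapMatrix (Matrix.of fun (i j : Fin n) => (⇑L)^[(i : ℕ)] (e j))).det := by
    rw [← RingHom.map_det]; rfl
  rw [hdet, ← Matrix.exists_mulVec_eq_zero_iff]
  constructor
  · rintro ⟨f, hf, hf0, hvan⟩
    obtain ⟨c, rfl⟩ := (Submodule.mem_span_range_iff_exists_fun K).1 hf
    refine ⟨c, ?_, ?_⟩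
    · rintro rfl
      exact hf0 (by simp)
    · funext i
      rw [← ev_iterate_sum_smul, hvan i i.2]
      rfl
  · rintro ⟨c, hc, hM⟩
    refine ⟨∑ j, c j • e j, (Submodule.mem_span_range_iff_exists_fun K).2 ⟨c, rfl⟩, ?_, ?_⟩
    · intro h0
      exact hc (funext fun j => (Fintype.linearIndependent_iff.1 he c h0 j))
    · intro i hi
      have := ev_iterate_sum_smul ev L e c ⟨i, hi⟩
      rw [hM] at this
      exact this

end Fermat.Agent.S13.H67
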