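/-
S13 / item 57: torsion polynomial on the short model `y² = x³ + a₂x² + a₄x + a₆` over `ℤ`
(interface between the Wronskian route and the transfer to the Frey curve), helper67.
-/
import Fermat.Agent.S13.TorsionDefs

set_option autoImplicit false

namespace Fermat.Agent.S13

open WeierstrassCurve WeierstrassCurve.Affine WeierstrassCurve.Affine.Point

/-- (TPM) Torsion polynomial for an integral model with `a₁ = a₃ = 0`:
there is `w ∈ ℤ[X]` of degree `(p² - 1)/2`, with leading coefficient `p·u`, `p ∤ u`,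
whose roots in `Q̄` are exactly the `x`-coordinates of the nonzero `p`-torsion points. -/
def Stmt_torsion_poly_model : Prop :=
  ∀ (W₀ : WeierstrassCurve ℤ), W₀.a₁ = 0 → W₀.a₃ = 0 → W₀.Δ ≠ 0 →
    ∀ p : ℕ, p.Prime → p ≠ 2 →
    ∃ w : Polynomial ℤ,
      w.natDegree = (p ^ 2 - 1) / 2 ∧
      (∃ u : ℤ, w.leadingCoeff = (p : ℤ) * u ∧ ¬ (p : ℤ) ∣ u) ∧
      ∀ (x y : Qbar) (h : (W₀⁄Qbar).Nonsingular x y),
        ((p : ℤ) • (Point.some x y h : (W₀⁄Qbar).Point) = 0 ↔
          (w.map (algebraMap ℤ Qbar)).eval x = 0)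

end Fermat.Agent.S13
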