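/-
S13 / item 57, task T1 (helper87): transfer of the torsion polynomial from the integral model
`y² = x (x - a^p) (x + b^p)` to the Frey curve, along `(x, y) ↦ (4x, 8y + 4x)`.

Main result: `Fermat.Agent.S13.H87.torsion_poly_of_model : Stmt_torsion_poly_model → Stmt_torsion_poly`.
-/
import Fermat.Agent.S13.TorsionDefs2
import Fermat.Agent.S05.H14_VarChange

set_option autoImplicit false

namespace Fermat.Agent.S13

open WeierstrassCurve WeierstrassCurve.Affine WeierstrassCurve.Affine.Point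

namespace H87

open Polynomial

/-- The model `y² = x (x - a^p) (x + b^p)` of the Frey curve, over `ℤ`. -/
def freyModelInt (P : FreyPackage) : WeierstrassCurve ℤ where
  a₁ := 0
  a₂ := P.b ^ P.p - P.a ^ P.p
  a₃ := 0
  a₄ := -(P.a ^ P.p * P.b ^ P.p)
  a₆ := 0

lemma freyModelInt_Δ (P : FreyPackage) :
    (freyModelInt P).Δ = 16 * (P.a ^ P.p * P.b ^ P.p * P.c ^ P.p) ^ 2 := by
  have h := P.hFLT
  simp only [WeierstrassCurve.Δ, WeierstrassCurve.b₂, WeierstrassCurve.b₄, WeierstrassCurve.b₆,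
    WeierstrassCurve.b₈, freyModelInt]
  rw [← h]
  ring

lemma freyModelInt_Δ_ne_zero (P : FreyPackage) : (freyModelInt P).Δ ≠ 0 := by
  rw [freyModelInt_Δ]
  have ha := pow_ne_zero P.p P.ha0
  have hb := pow_ne_zero P.p P.hb0
  have hc := pow_ne_zero P.p P.hc0
  exact mul_ne_zero (by norm_num) (pow_ne_zero _ (mul_ne_zero (mul_ne_zero ha hb) hc))

/-- `(x, y) ↦ (4x, 8y + 4x)` carries the Frey curve to the model. -/
lemma isVarChange_freyModel (P : FreyPackage) :
    S05.H14.IsVarChange (P.freyCurve.baseChange Qbar) ((freyModelInt P).baseChange Qbar)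
      (2 : Qbar) 0 1 0 := by
  refine ⟨two_ne_zero, ?_, ?_, ?_, ?_, ?_⟩
  all_goals
    simp only [WeierstrassCurve.baseChange, WeierstrassCurve.map_a₁, WeierstrassCurve.map_a₂,
      WeierstrassCurve.map_a₃, WeierstrassCurve.map_a₄, WeierstrassCurve.map_a₆,
      FreyPackage.freyCurve, freyModelInt, _root_.map_zero, map_one, map_sub, map_neg, map_mul,
      map_pow, map_div₀, map_intCast, map_ofNat, eq_intCast]
    try ring

/-- Substituting `4 X`. -/
noncomputable def scale4 (w : ℤ[X]) : ℤ[X] := w.comp (C 4 * X)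

lemma natDegree_C4X : (C (4 : ℤ) * X : ℤ[X]).natDegree = 1 :=
  natDegree_C_mul_X 4 (by norm_num)

lemma leadingCoeff_C4X : (C (4 : ℤ) * X : ℤ[X]).leadingCoeff = 4 := by
  rw [leadingCoeff_mul, leadingCoeff_C, leadingCoeff_X, mul_one]

lemma natDegree_scale4 (w : ℤ[X]) : (scale4 w).natDegree = w.natDegree := by
  rw [scale4, natDegree_comp, natDegree_C4X, mul_one]

lemma leadingCoeff_scale4 (w : ℤ[X]) :
    (scale4 w).leadingCoeff = w.leadingCoeff * 4 ^ w.natDegree := by
  rw [scale4, leadingCoeff_comp (by rw [natDegree_C4X]; exact one_ne_zero), leadingCoeff_C4X]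

lemma eval_map_scale4 (w : ℤ[X]) (x : Qbar) :
    ((scale4 w).map (algebraMap ℤ Qbar)).eval x = (w.map (algebraMap ℤ Qbar)).eval (4 * x) := by
  rw [scale4, Polynomial.map_comp, eval_comp]
  simp

/-- (T1) The torsion polynomial of the model `y² = x (x - a^p) (x + b^p)` gives the torsion
polynomial of the Frey curve. -/
theorem torsion_poly_of_model (hM : Stmt_torsion_poly_model) : Stmt_torsion_poly := by
  intro P
  have hp2 : P.p ≠ 2 := by have := P.hp5; omega
  obtain ⟨w, hdeg, ⟨u, hlc, hu⟩, hw⟩ :=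
    hM (freyModelInt P) rfl rfl (freyModelInt_Δ_ne_zero P) P.p P.pp hp2
  have hpZ : Prime (P.p : ℤ) := Nat.prime_iff_prime_int.mp P.pp
  refine ⟨scale4 w, ?_, ⟨u * 4 ^ w.natDegree, ?_, ?_⟩, ?_⟩
  · rw [natDegree_scale4, hdeg]
  · rw [leadingCoeff_scale4, hlc, mul_assoc]
  · intro hdvd
    rcases hpZ.dvd_or_dvd hdvd with h | h
    · exact hu h
    · have h4 : (P.p : ℤ) ∣ 4 := hpZ.dvd_of_dvd_pow h
      have h4' : P.p ∣ 4 := by exact_mod_cast h4
      have := Nat.le_of_dvd (by norm_num) h4'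
      have := P.hp5
      omega
  · intro x y h
    have hvc := isVarChange_freyModel P
    have key := hw (S05.H14.fx (2 : Qbar) 0 x) (S05.H14.fy (2 : Qbar) 1 0 x y)
      ((hvc.nonsingular_iff x y).2 h)
    have hfx : 4 * x = S05.H14.fx (2 : Qbar) 0 x := by
      simp only [S05.H14.fx]; ring
    rw [eval_map_scale4, hfx, ← key, ← hvc.addEquiv_some h, ← map_zsmul]
    exact (hvc.addEquiv.map_eq_zero_iff).symm

end H87

end Fermat.Agent.S13
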